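import Fermat.Agent.Corollaries.Kro.ModPol

/-!
# Kronecker's congruence

`kronecker_congruence`: `Φ_p(X, Y) ≡ (X^p - Y) (X - Y^p)` modulo `p`.
-/

set_option autoImplicit false

noncomputable section

open UpperHalfPlane MatrixGroups
open scoped Manifold Real Polynomial

namespace Fermat.Agent.Cor.Kro

open Fermat.Agent.Cor.Tau (jinv HasExp jser map_jser hasSum_mul jinv_smul jinv_surjective
  hasExp_qj)

local notation "𝕢" => Function.Periodic.qParam

section ring

variable {A B : Type} [CommRing A] [CommRing B]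

/-- the factor at the root of unity `z`, `z' = z⁻¹` -/
def Gzr (z z' : A) : Polynomial (PowerSeries A) :=
  Polynomial.C PowerSeries.X * Polynomial.X -
    Polynomial.C (PowerSeries.C z' * PowerSeries.rescale z (jser A))

variable (A) in
/-- the factor at `∞` -/
def Gir (p : ℕ) (hp : p ≠ 0) : Polynomial (PowerSeries A) :=
  Polynomial.C (PowerSeries.X ^ (p ^ 2)) * Polynomial.X -
    Polynomial.C (PowerSeries.expand p hp (PowerSeries.expand p hp (jser A)))

variable (A) in
/-- the expansion of `q^{p+1} (X - j^p) (X^p - j)` -/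
def HG (p : ℕ) : Polynomial (PowerSeries A) :=
  (Polynomial.C (PowerSeries.X ^ p) * Polynomial.X - Polynomial.C (jser A ^ p)) *
    (Polynomial.C PowerSeries.X * Polynomial.X ^ p - Polynomial.C (jser A))

theorem map_Gzr (f : A →+* B) (z z' : A) :
    (Gzr z z').map (PowerSeries.map f) = Gzr (f z) (f z') := by
  have h : PowerSeries.map f (PowerSeries.rescale z (jser A)) =
      PowerSeries.rescale (f z) (jser B) := by
    ext n
    rw [PowerSeries.coeff_map, PowerSeries.coeff_rescale, PowerSeries.coeff_rescale, map_mul,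
      map_pow, ← map_jser f, PowerSeries.coeff_map]
  rw [Gzr, Gzr, Polynomial.map_sub, Polynomial.map_mul, Polynomial.map_C, Polynomial.map_C,
    Polynomial.map_X, PowerSeries.map_X, map_mul, h, PowerSeries.map_C]

theorem map_Gir (f : A →+* B) (p : ℕ) (hp : p ≠ 0) :
    (Gir A p hp).map (PowerSeries.map f) = Gir B p hp := by
  rw [Gir, Gir, Polynomial.map_sub, Polynomial.map_mul, Polynomial.map_C, Polynomial.map_C,
    Polynomial.map_X, map_pow, PowerSeries.map_X, PowerSeries.map_expand, PowerSeries.map_expand,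
    map_jser]

theorem map_HG (f : A →+* B) (p : ℕ) : (HG A p).map (PowerSeries.map f) = HG B p := by
  simp only [HG, Polynomial.map_mul, Polynomial.map_sub, Polynomial.map_pow, Polynomial.map_C,
    Polynomial.map_X, map_pow, PowerSeries.map_X, map_jser]

variable (A) in
/-- `J(t)^p = J(t^p)` in characteristic `p` -/
theorem jser_frob (p : ℕ) [Fact p.Prime] [CharP A p] (hp : p ≠ 0) :
    PowerSeries.expand p hp (jser A) = jser A ^ p := by
  have h := MvPowerSeries.map_frobenius_expand (R := A) p hp (f := jser A)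
  rw [← h]
  have h2 : PowerSeries.map (frobenius A p) (PowerSeries.expand p hp (jser A)) =
      PowerSeries.expand p hp (jser A) := by
    rw [PowerSeries.map_expand, map_jser]
  exact h2.symm

theorem Gzr_one : Gzr (1 : A) 1 =
    Polynomial.C PowerSeries.X * Polynomial.X - Polynomial.C (jser A) := by
  rw [Gzr, PowerSeries.rescale_one, map_one, one_mul, RingHom.id_apply]

variable (A) in
/-- the product in characteristic `p` -/
theorem prod_char (p : ℕ) [Fact p.Prime] [CharP A p] (hp : p ≠ 0) :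
    Gir A p hp * ∏ b ∈ Finset.range p, Gzr ((1 : A) ^ b) ((1 : A) ^ b) =
      (HG A p).map (PowerSeries.expand p hp : PowerSeries A →ₐ[A] PowerSeries A).toRingHom := by
  have hc : CharP (Polynomial (PowerSeries A)) p := by
    refine charP_of_injective_ringHom
      (f := (Polynomial.C : PowerSeries A →+* _).comp (PowerSeries.C : A →+* PowerSeries A)) ?_ p
    exact Polynomial.C_injective.comp PowerSeries.C_injective
  have hX : (PowerSeries.expand p hp : PowerSeries A →ₐ[A] PowerSeries A).toRingHom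
      PowerSeries.X = PowerSeries.X ^ p := PowerSeries.expand_X p hp
  have hJ : (PowerSeries.expand p hp : PowerSeries A →ₐ[A] PowerSeries A).toRingHom
      (jser A) = jser A ^ p := jser_frob A p hp
  have h2 : PowerSeries.expand p hp (PowerSeries.expand p hp (jser A)) = (jser A ^ p) ^ p := by
    rw [jser_frob, map_pow, jser_frob]
  simp only [one_pow, Finset.prod_const, Finset.card_range]
  rw [Gzr_one, sub_pow_char, HG, Gir, h2]
  simp only [Polynomial.map_mul, Polynomial.map_sub, Polynomial.map_pow, Polynomial.map_C,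
    Polynomial.map_X, map_pow, hX, hJ, mul_pow, sq, pow_mul]

end ring

/-! ### Expansions -/

theorem hasSum_pow' {f : PowerSeries ℂ} {t s : ℂ} (h : HasSum (fun n : ℕ => f.coeff n * t ^ n) s)
    (m : ℕ) : HasSum (fun n : ℕ => (f ^ m).coeff n * t ^ n) (s ^ m) := by
  induction m with
  | zero =>
    have := hasSum_C 1 t
    rwa [map_one] at this
  | succ m ih =>
    rw [pow_succ, pow_succ]
    exact hasSum_mul ih h

theorem PX.const {t : ℍ → ℂ} {c : ℍ → ℂ} {g : PowerSeries ℂ}
    (hc : ∀ τ, HasSum (fun n : ℕ => g.coeff n * t τ ^ n) (c τ)) :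
    PX t (fun τ => Polynomial.C (c τ)) (Polynomial.C g) := by
  intro τ k
  beta_reduce
  rw [Polynomial.coeff_C, Polynomial.coeff_C]
  split_ifs
  · exact hc τ
  · simp

theorem PX.X_pow {t : ℍ → ℂ} (m : ℕ) :
    PX t (fun _ => Polynomial.X ^ m) (Polynomial.X ^ m) := by
  intro τ k
  beta_reduce
  rw [Polynomial.coeff_X_pow, Polynomial.coeff_X_pow]
  split_ifs
  · have := hasSum_C 1 (t τ)
    rwa [map_one] at this
  · simp

theorem PX.sub {t : ℍ → ℂ} {F F' : ℍ → ℂ[X]} {G G' : Polynomial (PowerSeries ℂ)} (h : PX t F G)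
    (h' : PX t F' G') : PX t (fun τ => F τ - F' τ) (G - G') := by
  intro τ k
  beta_reduce
  rw [Polynomial.coeff_sub, Polynomial.coeff_sub]
  exact hasSum_sub' (h τ k) (h' τ k)

section P

variable (p : ℕ) [hpf : Fact p.Prime]

/-- `(X^p - j) (X - j^p)` -/
def Ka (τ : ℍ) : ℂ[X] :=
  (Polynomial.X ^ p - Polynomial.C (jinv τ)) * (Polynomial.X - Polynomial.C (jinv τ ^ p))

omit hpf in
theorem PX_HG : PX (fun τ => 𝕢 1 (τ : ℂ)) (fun τ => Polynomial.C (𝕢 1 (τ : ℂ) ^ (p + 1)) * Ka p τ)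
    (HG ℂ p) := by
  have hj : ∀ τ : ℍ, HasSum (fun n : ℕ => (jser ℂ).coeff n * 𝕢 1 (τ : ℂ) ^ n)
      (𝕢 1 (τ : ℂ) * jinv τ) := fun τ => hasExp_qj τ
  have h1 : PX (fun τ => 𝕢 1 (τ : ℂ)) _ _ := PX.lin (fun τ => hasSum_X_pow p (𝕢 1 (τ : ℂ)))
    (fun τ => hasSum_pow' (hj τ) p)
  have h2 : PX (fun τ => 𝕢 1 (τ : ℂ)) _ _ := (PX.const fun τ => hasSum_X_pow 1 (𝕢 1 (τ : ℂ))).mul
    (PX.X_pow p)
  have h3 := h1.mul (h2.sub (PX.const hj))
  rw [pow_one] at h3
  have e : (fun τ : ℍ => Polynomial.C (𝕢 1 (τ : ℂ) ^ (p + 1)) * Ka p τ) = fun τ : ℍ =>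
      (Polynomial.C (𝕢 1 (τ : ℂ) ^ p) * Polynomial.X -
        Polynomial.C ((𝕢 1 (τ : ℂ) * jinv τ) ^ p)) *
      (Polynomial.C (𝕢 1 (τ : ℂ) ^ 1) * Polynomial.X ^ p -
        Polynomial.C (𝕢 1 (τ : ℂ) * jinv τ)) := by
    funext τ
    rw [Ka]
    simp only [Polynomial.C_mul, Polynomial.C_pow, mul_pow]
    ring
  rw [e]
  exact h3

/-! ### Reduction -/

theorem exists_kappa : ∃ (κ : Type) (_ : CommRing κ) (_ : IsDomain κ) (_ : CharP κ p),
    Nonempty (integralClosure ℤ ℂ →+* κ) := by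
  have hprime : Prime (p : ℤ) := Nat.prime_iff_prime_int.mp hpf.out
  have hmax : (Ideal.span {(p : ℤ)}).IsMaximal :=
    PrincipalIdealRing.isMaximal_of_irreducible hprime.irreducible
  obtain ⟨Q, hQ1, hQ2⟩ := Ideal.exists_ideal_over_maximal_of_isIntegral
    (S := integralClosure ℤ ℂ) (Ideal.span {(p : ℤ)}) (by
      have h0 : RingHom.ker (algebraMap ℤ (integralClosure ℤ ℂ)) = ⊥ := by
        rw [← RingHom.injective_iff_ker_eq_bot]
        exact FaithfulSMul.algebraMap_injective ℤ (integralClosure ℤ ℂ)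
      rw [h0]
      exact bot_le)
  have hc : CharP (integralClosure ℤ ℂ ⧸ Q) p := by
    refine ⟨fun x => ?_⟩
    have h1 : ((x : ℕ) : integralClosure ℤ ℂ ⧸ Q) =
        Ideal.Quotient.mk Q (algebraMap ℤ (integralClosure ℤ ℂ) (x : ℤ)) := by simp
    rw [h1, Ideal.Quotient.eq_zero_iff_mem, ← Ideal.mem_comap, hQ2, Ideal.mem_span_singleton,
      Int.natCast_dvd_natCast]
  exact ⟨integralClosure ℤ ℂ ⧸ Q, inferInstance, Ideal.Quotient.isDomain Q, hc,
    ⟨Ideal.Quotient.mk Q⟩⟩

theorem xp_sq (f : PowerSeries ℂ) : xp (p ^ 2) f = PowerSeries.expand p hpf.out.ne_zero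
    (PowerSeries.expand p hpf.out.ne_zero f) := by
  rw [← PowerSeries.expand_mul]
  ext n
  rw [xp, PowerSeries.coeff_mk, PowerSeries.coeff_expand, sq]

theorem Gi_eq : Gi p = Gir ℂ p hpf.out.ne_zero := by
  rw [Gi, Gir, xp_sq]

/-- the expansion of `q^{p+1} Ψ` over the algebraic integers -/
def GA : Polynomial (PowerSeries (integralClosure ℤ ℂ)) :=
  Gir _ p hpf.out.ne_zero * ∏ b ∈ Finset.range p,
    Gzr ((⟨zb p 1, zb_integral p 1⟩ : integralClosure ℤ ℂ) ^ b)
      ((⟨(zb p 1)⁻¹, zb_inv_integral p 1⟩ : integralClosure ℤ ℂ) ^ b)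

theorem map_GA : (GA p).map (PowerSeries.map (algebraMap (integralClosure ℤ ℂ) ℂ)) = GP p := by
  rw [GA, GP, Polynomial.map_mul, map_Gir, Gi_eq, Polynomial.map_prod]
  congr 1
  refine Finset.prod_congr rfl fun b _ => ?_
  rw [map_Gzr, map_pow, map_pow, zb_nat]
  have h1 : algebraMap (integralClosure ℤ ℂ) ℂ ⟨zb p 1, zb_integral p 1⟩ = zb p 1 := rfl
  have h2 : algebraMap (integralClosure ℤ ℂ) ℂ ⟨(zb p 1)⁻¹, zb_inv_integral p 1⟩ = (zb p 1)⁻¹ :=
    rfl
  rw [h1, h2, inv_pow]
  rfl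

theorem map_GA' {κ : Type} [CommRing κ] [IsDomain κ] [CharP κ p] (φ : integralClosure ℤ ℂ →+* κ) :
    (GA p).map (PowerSeries.map φ) = (HG κ p).map
      (PowerSeries.expand p hpf.out.ne_zero : PowerSeries κ →ₐ[κ] PowerSeries κ).toRingHom := by
  have key : ∀ z : integralClosure ℤ ℂ, z ^ p = 1 → φ z = 1 := by
    intro z hz
    have h1 : (φ z - 1) ^ p = 0 := by
      rw [sub_pow_char, ← map_pow, hz, map_one, one_pow, sub_self]
    exact sub_eq_zero.mp (pow_eq_zero_iff hpf.out.ne_zero |>.mp h1)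
  rw [← prod_char, GA, Polynomial.map_mul, map_Gir, Polynomial.map_prod]
  congr 1
  refine Finset.prod_congr rfl fun b _ => ?_
  rw [map_Gzr, map_pow, map_pow, key, key]
  · refine Subtype.ext ?_
    rw [SubmonoidClass.coe_pow]
    show (zb p 1)⁻¹ ^ p = 1
    rw [inv_pow, zb_pow, inv_one]
  · refine Subtype.ext ?_
    rw [SubmonoidClass.coe_pow]
    exact zb_pow p 1

/-- the coefficients modulo `p` -/
theorem dvd_coeff (k n : ℕ) {m : ℤ} (hm : (m : ℂ) = ((GP p).coeff k).coeff (p * n)) :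
    (p : ℤ) ∣ m - ((HG ℤ p).coeff k).coeff n := by
  obtain ⟨κ, _, _, _, ⟨φ⟩⟩ := exists_kappa p
  have h1 : ((GA p).coeff k).coeff (p * n) = (m : integralClosure ℤ ℂ) := by
    apply FaithfulSMul.algebraMap_injective (integralClosure ℤ ℂ) ℂ
    rw [map_intCast, hm, ← map_GA, Polynomial.coeff_map, PowerSeries.coeff_map]
  have h2 := congrArg (fun G : Polynomial (PowerSeries κ) => (G.coeff k).coeff (p * n))
    (map_GA' p φ)
  simp only [Polynomial.coeff_map, PowerSeries.coeff_map] at h2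
  rw [h1, map_intCast] at h2
  have h3 : ((PowerSeries.expand p hpf.out.ne_zero : PowerSeries κ →ₐ[κ] PowerSeries κ).toRingHom
      ((HG κ p).coeff k)).coeff (p * n) = ((HG κ p).coeff k).coeff n :=
    PowerSeries.coeff_expand_mul p hpf.out.ne_zero _ n
  rw [h3, ← map_HG (Int.castRingHom κ), Polynomial.coeff_map, PowerSeries.coeff_map] at h2
  rw [← CharP.intCast_eq_zero_iff κ p, Int.cast_sub, h2, eq_intCast, sub_self]

/-! ### The congruence -/

/-- `(X^p - Y) (X - Y^p)` -/
def kron : ℤ[X][X] :=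
  (Polynomial.X ^ p - Polynomial.C Polynomial.X) *
    (Polynomial.X - Polynomial.C (Polynomial.X ^ p))

omit hpf in
theorem map_kron (τ : ℍ) : (kron p).map (ev τ) = Ka p τ := by
  have h : ev τ Polynomial.X = jinv τ := Polynomial.aeval_X (jinv τ)
  simp only [kron, Ka, Polynomial.map_mul, Polynomial.map_sub, Polynomial.map_pow, Polynomial.map_C,
    Polynomial.map_X, map_pow, h]

omit hpf in
theorem Ka_smul (γ : SL(2, ℤ)) (τ : ℍ) : Ka p (γ • τ) = Ka p τ := by
  rw [Ka, Ka, jinv_smul]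

omit hpf in
theorem mdiff_Ka (k : ℕ) : MDiff fun τ => (Ka p τ).coeff k := by
  rw [UpperHalfPlane.mdifferentiable_iff]
  have hX : Hol fun _ : ℂ => (Polynomial.X ^ p : ℂ[X]) := fun k => differentiableOn_const _
  have h1 : Hol fun w => (Polynomial.X ^ p - Polynomial.C (jinv (ofComplex w)) : ℂ[X]) := by
    intro k
    simp only [Polynomial.coeff_sub, Polynomial.coeff_C]
    refine (differentiableOn_const _).sub ?_
    split_ifs
    · exact diffOn_jinv
    · exact differentiableOn_const _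
  have h : Hol fun w => Ka p (ofComplex w) := h1.mul (Hol.X_sub_C (diffOn_jinv.pow p))
  exact h k

theorem exists_dvd_coeff (k : ℕ) : ∃ Q : ℤ[X], (modPol p).coeff k - (kron p).coeff k =
    Polynomial.C (p : ℤ) * Q := by
  have hp0 : (p : ℂ) ≠ 0 := by exact_mod_cast hpf.out.ne_zero
  have hE : HasExp (fun τ => 𝕢 1 (τ : ℂ) ^ (p + 1) *
      ((p : ℂ)⁻¹ * ((Psi p τ).coeff k - (Ka p τ).coeff k)))
      (PowerSeries.mk fun n => (p : ℂ)⁻¹ *
        (((GP p).coeff k).coeff (p * n) - ((HG ℂ p).coeff k).coeff n)) := by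
    intro τ
    have h1 := hasExp_coeff p k τ
    have h2 := PX_HG p τ k
    beta_reduce at h1 h2
    rw [Polynomial.coeff_C_mul] at h2
    have h3 := (h1.sub h2).mul_left (p : ℂ)⁻¹
    rw [← mul_sub, mul_left_comm] at h3
    refine h3.congr_fun fun n => ?_
    rw [PowerSeries.coeff_mk, PowerSeries.coeff_mk]
    ring
  obtain ⟨P, hP1, -, -, hP4⟩ := polyStmt (Int.castRingHom ℂ).range (p + 1) _ _
    ((mdifferentiable_const (c := (p : ℂ)⁻¹)).mul ((mdiff_coeff p k).sub (mdiff_Ka p k)))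
    (fun γ τ => by simp only [Pi.mul_apply, Pi.sub_apply, Psi_smul, Ka_smul]) hE (fun n => by
      rw [PowerSeries.coeff_mk]
      obtain ⟨m, hm⟩ := exists_int_coeff p k (p * n)
      obtain ⟨c, hc⟩ := dvd_coeff p k n hm
      refine ⟨c, ?_⟩
      have h1 : ((HG ℂ p).coeff k).coeff n = (((HG ℤ p).coeff k).coeff n : ℂ) := by
        rw [← map_HG (Int.castRingHom ℂ), Polynomial.coeff_map, PowerSeries.coeff_map, eq_intCast]
      rw [h1, ← hm, ← Int.cast_sub, hc, Int.cast_mul, Int.cast_natCast, eq_intCast]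
      field_simp)
  have hl : P ∈ Polynomial.lifts (Int.castRingHom ℂ) := by
    rw [Polynomial.lifts_iff_coeff_lifts]
    exact fun n => hP1 n
  obtain ⟨Q, hQ⟩ := hl
  refine ⟨Q, ?_⟩
  apply Polynomial.map_injective (Int.castRingHom ℂ) (RingHom.injective_int _)
  refine Polynomial.funext fun x => ?_
  obtain ⟨τ, rfl⟩ := jinv_surjective x
  have h1 : ev τ ((modPol p).coeff k) = (Psi p τ).coeff k := by
    rw [← map_modPol, Polynomial.coeff_map]
  have h2 : ev τ ((kron p).coeff k) = (Ka p τ).coeff k := by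
    rw [← map_kron, Polynomial.coeff_map]
  have h3 : (p : ℂ)⁻¹ * ((Psi p τ).coeff k - (Ka p τ).coeff k) =
      Polynomial.eval (jinv τ) P := hP4 τ
  have hQ' : Q.map (Int.castRingHom ℂ) = P := hQ
  rw [← hQ'] at h3
  rw [Polynomial.map_sub, Polynomial.map_mul, Polynomial.map_C, Polynomial.eval_sub,
    Polynomial.eval_mul, Polynomial.eval_C, ← h3, Polynomial.eval_map, Polynomial.eval_map]
  have h1' : Polynomial.eval₂ (Int.castRingHom ℂ) (jinv τ) ((modPol p).coeff k) =
    (Psi p τ).coeff k := h1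
  have h2' : Polynomial.eval₂ (Int.castRingHom ℂ) (jinv τ) ((kron p).coeff k) =
    (Ka p τ).coeff k := h2
  rw [h1', h2', eq_intCast, Int.cast_natCast, mul_inv_cancel_left₀ hp0]

/-- **Kronecker's congruence**: `Φ_p(X, Y) ≡ (X^p - Y) (X - Y^p)` modulo `p`. -/
theorem kronecker_dvd : (p : ℤ[X][X]) ∣ modPol p -
    (Polynomial.X ^ p - Polynomial.C Polynomial.X) *
      (Polynomial.X - Polynomial.C (Polynomial.X ^ p)) := by
  have h : (p : ℤ[X][X]) = Polynomial.C (Polynomial.C (p : ℤ)) := by simp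
  rw [h, Polynomial.C_dvd_iff_dvd_coeff]
  intro k
  obtain ⟨Q, hQ⟩ := exists_dvd_coeff p k
  rw [Polynomial.coeff_sub]
  exact ⟨Q, hQ⟩

/-- **Kronecker's congruence** over the field with `p` elements -/
theorem kronecker_congruence :
    (modPol p).map (Polynomial.mapRingHom (Int.castRingHom (ZMod p))) =
      (Polynomial.X ^ p - Polynomial.C Polynomial.X) *
        (Polynomial.X - Polynomial.C (Polynomial.X ^ p)) := by
  obtain ⟨R, hR⟩ := kronecker_dvd p
  rw [sub_eq_iff_eq_add] at hR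
  rw [hR, Polynomial.map_add, Polynomial.map_mul, Polynomial.map_natCast]
  have h0 : ((p : ℕ) : (ZMod p)[X][X]) = 0 := by
    have : ((p : ℕ) : (ZMod p)[X][X]) = Polynomial.C (Polynomial.C ((p : ℕ) : ZMod p)) := by simp
    rw [this, ZMod.natCast_self, map_zero, map_zero]
  rw [h0, zero_mul, zero_add]
  simp only [Polynomial.map_mul, Polynomial.map_sub, Polynomial.map_pow, Polynomial.map_C,
    Polynomial.map_X, Polynomial.coe_mapRingHom, Polynomial.map_pow]

end P

end Fermat.Agent.Cor.Kro
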