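import Fermat.Agent.Corollaries.Tau.JSurj

/-!
# Singular moduli are algebraic integers: definitions and statements

`p` a prime number. The modular correspondence of degree `p`:
`Φ(τ) = (j(τ) - j(pτ)) ∏_{b mod p} (j(τ) - j((τ + b)/p))`.
-/

set_option autoImplicit false

noncomputable section

open UpperHalfPlane MatrixGroups
open scoped Manifold Real

namespace Fermat.Agent.Cor.Kro

open Fermat.Agent.Cor.Tau (jinv HasExp)

local notation "𝕢" => Function.Periodic.qParam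

/-- `pτ` -/
def up (p : ℕ) [Fact p.Prime] (τ : ℍ) : ℍ :=
  ⟨(p : ℂ) * τ, by
    have h : 0 < (p : ℝ) := by exact_mod_cast (Fact.out : p.Prime).pos
    simpa using mul_pos h τ.im_pos⟩

/-- `(τ + b)/p` -/
def dn (p : ℕ) [Fact p.Prime] (b : ℤ) (τ : ℍ) : ℍ :=
  ⟨((τ : ℂ) + b) / p, by
    have h : 0 < (p : ℝ) := by exact_mod_cast (Fact.out : p.Prime).pos
    have h1 : (((τ : ℂ) + b) / p).im = τ.im / p := by
      rw [Complex.div_natCast_im]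
      simp
    rw [h1]
    exact div_pos τ.im_pos h⟩

theorem coe_up (p : ℕ) [Fact p.Prime] (τ : ℍ) : ((up p τ : ℍ) : ℂ) = (p : ℂ) * τ := rfl

theorem coe_dn (p : ℕ) [Fact p.Prime] (b : ℤ) (τ : ℍ) :
    ((dn p b τ : ℍ) : ℂ) = ((τ : ℂ) + b) / p := rfl

/-- `Φ(τ) = (j(τ) - j(pτ)) ∏_{b mod p} (j(τ) - j((τ + b)/p))` -/
def Phi (p : ℕ) [Fact p.Prime] (τ : ℍ) : ℂ :=
  (jinv τ - jinv (up p τ)) * ∏ b ∈ Finset.range p, (jinv τ - jinv (dn p b τ))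

/-- (A) `Φ` is invariant under `SL₂(ℤ)` -/
def InvStmt : Prop :=
  ∀ (p : ℕ) [Fact p.Prime] (γ : SL(2, ℤ)) (τ : ℍ), Phi p (γ • τ) = Phi p τ

/-- (B) `q^{2p} Φ` is a power series in `q` with algebraic integers as coefficients and constant
term `-1` -/
def ExpStmt : Prop :=
  ∀ (p : ℕ) [Fact p.Prime], ∃ f : PowerSeries ℂ,
    HasExp (fun τ => 𝕢 1 (τ : ℂ) ^ (2 * p) * Phi p τ) f ∧ (∀ n, IsIntegral ℤ (f.coeff n)) ∧
      f.coeff 0 = -1

/-- (C) a holomorphic invariant function with integral expansion is an integral polynomial in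
`j` -/
def PolyStmt : Prop :=
  ∀ (R : Subring ℂ) (N : ℕ) (F : ℍ → ℂ) (f : PowerSeries ℂ), MDiff F →
    (∀ (γ : SL(2, ℤ)) (τ : ℍ), F (γ • τ) = F τ) →
    HasExp (fun τ => 𝕢 1 (τ : ℂ) ^ N * F τ) f → (∀ n, f.coeff n ∈ R) →
    ∃ P : Polynomial ℂ, (∀ n, P.coeff n ∈ R) ∧ P.natDegree ≤ N ∧ P.coeff N = f.coeff 0 ∧
      ∀ τ, F τ = P.eval (jinv τ)

/-- (D) every imaginary quadratic `τ` is a zero of some `Φ` -/
def ZeroStmt : Prop :=
  ∀ (τ : ℍ) (a b c : ℤ), a ≠ 0 → (a : ℂ) * (τ : ℂ) ^ 2 + b * (τ : ℂ) + c = 0 →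
    ∃ (p : ℕ) (_ : Fact p.Prime), Phi p τ = 0

/-- (E) **singular moduli are algebraic integers** -/
def SingStmt : Prop :=
  ∀ (τ : ℍ) (a b c : ℤ), a ≠ 0 → (a : ℂ) * (τ : ℂ) ^ 2 + b * (τ : ℂ) + c = 0 →
    IsIntegral ℤ (jinv τ)

end Fermat.Agent.Cor.Kro
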