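import Fermat.Agent.Corollaries.Kro.Defs

/-!
# The expansion of `Φ`

`q^{2p} Φ` is a power series in `q` with algebraic integers as coefficients and constant term `-1`.
-/

set_option autoImplicit false

noncomputable section

open UpperHalfPlane MatrixGroups Asymptotics
open scoped Manifold Real Topology

namespace Fermat.Agent.Cor.Kro

open Fermat.Agent.Cor.Tau (jinv HasExp jser hasExp_qj hasSum_mul map_jser coeff_zero_jser)

local notation "𝕢" => Function.Periodic.qParam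

/-- the power series with algebraic integers as coefficients -/
def IS : Subring (PowerSeries ℂ) := (PowerSeries.map (algebraMap (integralClosure ℤ ℂ) ℂ)).range

theorem mem_IS {g : PowerSeries ℂ} : g ∈ IS ↔ ∀ n, IsIntegral ℤ (g.coeff n) := by
  constructor
  · rintro ⟨h, rfl⟩ n
    rw [PowerSeries.coeff_map]
    exact (h.coeff n).2
  · intro h
    refine ⟨PowerSeries.mk fun n => ⟨g.coeff n, h n⟩, ?_⟩
    ext n
    rw [PowerSeries.coeff_map, PowerSeries.coeff_mk]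
    rfl

theorem jser_mem : jser ℂ ∈ IS := by
  rw [mem_IS]
  intro n
  rw [← map_jser (Int.castRingHom ℂ), PowerSeries.coeff_map]
  exact isIntegral_algebraMap (R := ℤ) (A := ℂ)

theorem coeff_zero_jser' : (jser ℂ).coeff 0 = 1 := by
  rw [← map_jser (Int.castRingHom ℂ), PowerSeries.coeff_map, coeff_zero_jser, map_one]

/-- `f(t^k)` -/
def xp (k : ℕ) (f : PowerSeries ℂ) : PowerSeries ℂ :=
  PowerSeries.mk fun n => if k ∣ n then f.coeff (n / k) else 0

theorem xp_mem {k : ℕ} {f : PowerSeries ℂ} (hf : f ∈ IS) : xp k f ∈ IS := by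
  rw [mem_IS] at hf ⊢
  intro n
  rw [xp, PowerSeries.coeff_mk]
  split_ifs
  · exact hf _
  · exact isIntegral_zero

theorem coeff_zero_xp (k : ℕ) (f : PowerSeries ℂ) : (xp k f).coeff 0 = f.coeff 0 := by
  rw [xp, PowerSeries.coeff_mk, if_pos (dvd_zero k), Nat.zero_div]

theorem hasSum_xp {k : ℕ} (hk : 0 < k) {f : PowerSeries ℂ} {t s : ℂ}
    (h : HasSum (fun n : ℕ => f.coeff n * (t ^ k) ^ n) s) :
    HasSum (fun n : ℕ => (xp k f).coeff n * t ^ n) s := by
  have hinj : Function.Injective fun n : ℕ => k * n := fun a b hab => Nat.eq_of_mul_eq_mul_left hk hab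
  refine (hinj.hasSum_iff fun n hn => ?_).mp ?_
  · rw [xp, PowerSeries.coeff_mk, if_neg, zero_mul]
    rintro ⟨c, rfl⟩
    exact hn ⟨c, rfl⟩
  · refine h.congr_fun fun n => ?_
    simp only [Function.comp_apply]
    rw [xp, PowerSeries.coeff_mk, if_pos (dvd_mul_right k n), Nat.mul_div_cancel_left n hk, pow_mul]

theorem hasSum_of_xp {k : ℕ} (hk : 0 < k) {g : PowerSeries ℂ} {t s : ℂ}
    (hg : ∀ n, ¬ k ∣ n → g.coeff n = 0) (h : HasSum (fun n : ℕ => g.coeff n * t ^ n) s) :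
    HasSum (fun n : ℕ => g.coeff (k * n) * (t ^ k) ^ n) s := by
  have hinj : Function.Injective fun n : ℕ => k * n := fun a b hab => Nat.eq_of_mul_eq_mul_left hk hab
  have h1 := (hinj.hasSum_iff (f := fun n : ℕ => g.coeff n * t ^ n) (a := s) fun n hn => ?_).mpr h
  · refine h1.congr_fun fun n => ?_
    simp only [Function.comp_apply]
    rw [pow_mul]
  · rw [hg n, zero_mul]
    rintro ⟨c, rfl⟩
    exact hn ⟨c, rfl⟩

/-- uniqueness of the coefficients -/
theorem coeff_eq_zero {b : ℕ → ℂ}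
    (hs : ∀ q : ℂ, q ≠ 0 → ‖q‖ < 1 → HasSum (fun n => b n * q ^ n) 0) (n : ℕ) : b n = 0 :=
  Eta.coeff_eq_zero_of_isBigO (g := fun _ => 0) (n + 1) one_pos hs (isBigO_zero _ _) n
    (Nat.lt_succ_self n)

theorem hasSum_C (c t : ℂ) :
    HasSum (fun n : ℕ => (PowerSeries.C c : PowerSeries ℂ).coeff n * t ^ n) c := by
  have h : HasSum (fun n : ℕ => (PowerSeries.C c : PowerSeries ℂ).coeff n * t ^ n)
      ((PowerSeries.C c : PowerSeries ℂ).coeff 0 * t ^ 0) := hasSum_single 0 fun n hn => by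
    rw [PowerSeries.coeff_C, if_neg hn, zero_mul]
  rwa [PowerSeries.coeff_C, if_pos rfl, pow_zero, mul_one] at h

theorem hasSum_X_pow (k : ℕ) (t : ℂ) :
    HasSum (fun n : ℕ => (PowerSeries.X ^ k : PowerSeries ℂ).coeff n * t ^ n) (t ^ k) := by
  have h : HasSum (fun n : ℕ => (PowerSeries.X ^ k : PowerSeries ℂ).coeff n * t ^ n)
      ((PowerSeries.X ^ k : PowerSeries ℂ).coeff k * t ^ k) := hasSum_single k fun n hn => by
    rw [PowerSeries.coeff_X_pow, if_neg hn, zero_mul]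
  rwa [PowerSeries.coeff_X_pow, if_pos rfl, one_mul] at h

theorem hasSum_sub' {f g : PowerSeries ℂ} {q x y : ℂ}
    (hf : HasSum (fun n : ℕ => f.coeff n * q ^ n) x)
    (hg : HasSum (fun n : ℕ => g.coeff n * q ^ n) y) :
    HasSum (fun n : ℕ => (f - g).coeff n * q ^ n) (x - y) := by
  refine (hf.sub hg).congr_fun fun n => ?_
  rw [map_sub, sub_mul]

section P

variable (p : ℕ) [hpf : Fact p.Prime]

theorem p_pos : 0 < p := hpf.out.pos

/-- `t = q^{1/p}` -/
def tp (τ : ℍ) : ℂ := 𝕢 p (τ : ℂ)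

/-- `exp(2πib/p)` -/
def zb (b : ℤ) : ℂ := Complex.exp (2 * π * Complex.I * b / p)

omit hpf in
theorem tp_eq (τ : ℍ) : tp p τ = Complex.exp (2 * π * Complex.I * τ / p) := rfl

theorem q_eq (τ : ℍ) : 𝕢 1 (τ : ℂ) = tp p τ ^ p := by
  have hp0 : (p : ℂ) ≠ 0 := by exact_mod_cast hpf.out.ne_zero
  rw [tp_eq, ← Complex.exp_nat_mul, Function.Periodic.qParam]
  congr 1
  field_simp
  simp

theorem q_up (τ : ℍ) : 𝕢 1 ((up p τ : ℍ) : ℂ) = tp p τ ^ (p ^ 2) := by
  have hp0 : (p : ℂ) ≠ 0 := by exact_mod_cast hpf.out.ne_zero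
  rw [tp_eq, ← Complex.exp_nat_mul, Function.Periodic.qParam, coe_up]
  congr 1
  push_cast
  field_simp

theorem q_dn (b : ℤ) (τ : ℍ) : 𝕢 1 ((dn p b τ : ℍ) : ℂ) = zb p b * tp p τ := by
  have hp0 : (p : ℂ) ≠ 0 := by exact_mod_cast hpf.out.ne_zero
  rw [tp_eq, zb, ← Complex.exp_add, Function.Periodic.qParam, coe_dn]
  congr 1
  push_cast
  field_simp
  ring

theorem zb_pow (b : ℤ) : zb p b ^ p = 1 := by
  have hp0 : (p : ℂ) ≠ 0 := by exact_mod_cast hpf.out.ne_zero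
  rw [zb, ← Complex.exp_nat_mul, Complex.exp_eq_one_iff]
  refine ⟨b, ?_⟩
  field_simp

theorem zb_integral (b : ℤ) : IsIntegral ℤ (zb p b) := by
  refine IsIntegral.of_pow (p_pos p) ?_
  rw [zb_pow]
  exact isIntegral_one

theorem zb_inv_integral (b : ℤ) : IsIntegral ℤ (zb p b)⁻¹ := by
  refine IsIntegral.of_pow (p_pos p) ?_
  rw [inv_pow, zb_pow, inv_one]
  exact isIntegral_one

omit hpf in
theorem zb_ne_zero (b : ℤ) : zb p b ≠ 0 := Complex.exp_ne_zero _

/-- the factor at `b` -/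
def fb (b : ℤ) : PowerSeries ℂ :=
  xp p (jser ℂ) - PowerSeries.C (zb p b)⁻¹ * PowerSeries.X ^ (p - 1) *
    PowerSeries.rescale (zb p b) (jser ℂ)

theorem hasSum_j (τ : ℍ) :
    HasSum (fun n : ℕ => (xp p (jser ℂ)).coeff n * tp p τ ^ n) (tp p τ ^ p * jinv τ) := by
  refine hasSum_xp (p_pos p) ?_
  have h := hasExp_qj τ
  rw [q_eq p τ, Tau.qj, q_eq p τ] at h
  exact h

theorem hasSum_fb (b : ℤ) (τ : ℍ) :
    HasSum (fun n : ℕ => (fb p b).coeff n * tp p τ ^ n)
      (tp p τ ^ p * (jinv τ - jinv (dn p b τ))) := by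
  have h1 := hasSum_j p τ
  have h2 : HasSum (fun n : ℕ => (PowerSeries.rescale (zb p b) (jser ℂ)).coeff n * tp p τ ^ n)
      (zb p b * tp p τ * jinv (dn p b τ)) := by
    have h := hasExp_qj (dn p b τ)
    rw [q_dn, Tau.qj, q_dn] at h
    refine h.congr_fun fun n => ?_
    rw [PowerSeries.coeff_rescale, mul_pow]
    ring
  have h3 := hasSum_sub' h1 (hasSum_mul (hasSum_mul (hasSum_C (zb p b)⁻¹ (tp p τ))
    (hasSum_X_pow (p - 1) (tp p τ))) h2)
  have e1 : tp p τ ^ p * (jinv τ - jinv (dn p b τ)) = tp p τ ^ p * jinv τ -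
      (zb p b)⁻¹ * tp p τ ^ (p - 1) * (zb p b * tp p τ * jinv (dn p b τ)) := by
    have e2 : tp p τ ^ p = tp p τ ^ (p - 1) * tp p τ := by
      rw [← pow_succ, Nat.sub_add_cancel (p_pos p)]
    have e3 := zb_ne_zero p b
    rw [e2]
    field_simp
  rw [e1]
  exact h3

theorem C_mem {c : ℂ} (h : IsIntegral ℤ c) : PowerSeries.C c ∈ IS := by
  rw [mem_IS]
  intro n
  rw [PowerSeries.coeff_C]
  split_ifs
  · exact h
  · exact isIntegral_zero

theorem X_mem : (PowerSeries.X : PowerSeries ℂ) ∈ IS := by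
  rw [mem_IS]
  intro n
  rw [PowerSeries.coeff_X]
  split_ifs
  · exact isIntegral_one
  · exact isIntegral_zero

theorem rescale_mem {z : ℂ} (hz : IsIntegral ℤ z) {f : PowerSeries ℂ} (hf : f ∈ IS) :
    PowerSeries.rescale z f ∈ IS := by
  rw [mem_IS] at hf ⊢
  intro n
  rw [PowerSeries.coeff_rescale]
  exact (hz.pow n).mul (hf n)

theorem fb_mem (b : ℤ) : fb p b ∈ IS :=
  IS.sub_mem (xp_mem jser_mem) (IS.mul_mem (IS.mul_mem (C_mem (zb_inv_integral p b))
    (IS.pow_mem X_mem _)) (rescale_mem (zb_integral p b) jser_mem))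

theorem coeff_zero_fb (b : ℤ) : PowerSeries.constantCoeff (fb p b) = 1 := by
  have h1 : PowerSeries.constantCoeff (xp p (jser ℂ)) = 1 := by
    rw [← PowerSeries.coeff_zero_eq_constantCoeff_apply, coeff_zero_xp, coeff_zero_jser']
  have h2 : p - 1 ≠ 0 := by
    have := hpf.out.two_le
    omega
  rw [fb, map_sub, map_mul, map_mul, map_pow, PowerSeries.constantCoeff_X, zero_pow h2, mul_zero,
    zero_mul, sub_zero, h1]

/-- the factor at `∞` -/
def fi : PowerSeries ℂ := PowerSeries.X ^ (p ^ 2 - p) * xp p (jser ℂ) - xp (p ^ 2) (jser ℂ)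

theorem hasSum_fi (τ : ℍ) :
    HasSum (fun n : ℕ => (fi p).coeff n * tp p τ ^ n)
      (tp p τ ^ (p ^ 2) * (jinv τ - jinv (up p τ))) := by
  have h1 := hasSum_j p τ
  have h2 : HasSum (fun n : ℕ => (xp (p ^ 2) (jser ℂ)).coeff n * tp p τ ^ n)
      (tp p τ ^ (p ^ 2) * jinv (up p τ)) := by
    refine hasSum_xp (pow_pos (p_pos p) 2) ?_
    have h := hasExp_qj (up p τ)
    rw [q_up p τ, Tau.qj, q_up p τ] at h
    exact h
  have h3 := hasSum_sub' (hasSum_mul (hasSum_X_pow (p ^ 2 - p) (tp p τ)) h1) h2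
  have e1 : tp p τ ^ (p ^ 2) * (jinv τ - jinv (up p τ)) =
      tp p τ ^ (p ^ 2 - p) * (tp p τ ^ p * jinv τ) - tp p τ ^ (p ^ 2) * jinv (up p τ) := by
    have e2 : tp p τ ^ (p ^ 2) = tp p τ ^ (p ^ 2 - p) * tp p τ ^ p := by
      rw [← pow_add, Nat.sub_add_cancel (Nat.le_self_pow two_ne_zero p)]
    conv_lhs => rw [mul_sub]
    rw [e2]
    ring
  rw [e1]
  exact h3

omit hpf in
theorem fi_mem : fi p ∈ IS :=
  IS.sub_mem (IS.mul_mem (IS.pow_mem X_mem _) (xp_mem jser_mem)) (xp_mem jser_mem)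

theorem coeff_zero_fi : PowerSeries.constantCoeff (fi p) = -1 := by
  have h1 : PowerSeries.constantCoeff (xp (p ^ 2) (jser ℂ)) = 1 := by
    rw [← PowerSeries.coeff_zero_eq_constantCoeff_apply, coeff_zero_xp, coeff_zero_jser']
  have h2 : p ^ 2 - p ≠ 0 := by
    have := hpf.out.two_le
    have h3 : p < p ^ 2 := by nlinarith
    omega
  rw [fi, map_sub, map_mul, map_pow, PowerSeries.constantCoeff_X, zero_pow h2, zero_mul, h1]
  norm_num

/-- the expansion of `q^{2p} Φ` in `t = q^{1/p}` -/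
def fP : PowerSeries ℂ := fi p * ∏ b ∈ Finset.range p, fb p b

theorem fP_mem : fP p ∈ IS := IS.mul_mem (fi_mem p) (IS.prod_mem fun b _ => fb_mem p b)

theorem coeff_zero_fP : (fP p).coeff 0 = -1 := by
  rw [PowerSeries.coeff_zero_eq_constantCoeff_apply, fP, map_mul, map_prod, coeff_zero_fi]
  have h : ∏ b ∈ Finset.range p, PowerSeries.constantCoeff (fb p (b : ℕ)) = (1 : ℂ) :=
    Finset.prod_eq_one fun b _ => coeff_zero_fb p b
  rw [h, mul_one]

theorem hasSum_prod' {ι : Type*} (s : Finset ι) {f : ι → PowerSeries ℂ} {x : ι → ℂ} {q : ℂ}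
    (h : ∀ i ∈ s, HasSum (fun n : ℕ => (f i).coeff n * q ^ n) (x i)) :
    HasSum (fun n : ℕ => (∏ i ∈ s, f i).coeff n * q ^ n) (∏ i ∈ s, x i) := by
  classical
  induction s using Finset.induction_on with
  | empty =>
    simp only [Finset.prod_empty]
    have := hasSum_C 1 q
    rwa [map_one] at this
  | insert a s ha ih =>
    rw [Finset.prod_insert ha, Finset.prod_insert ha]
    exact hasSum_mul (h a (Finset.mem_insert_self a s))
      (ih fun i hi => h i (Finset.mem_insert_of_mem hi))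

theorem hasSum_fP (τ : ℍ) :
    HasSum (fun n : ℕ => (fP p).coeff n * tp p τ ^ n) (𝕢 1 (τ : ℂ) ^ (2 * p) * Phi p τ) := by
  have h := hasSum_mul (hasSum_fi p τ)
    (hasSum_prod' (Finset.range p) fun b _ => hasSum_fb p (b : ℕ) τ)
  have e1 : 𝕢 1 (τ : ℂ) ^ (2 * p) * Phi p τ =
      tp p τ ^ (p ^ 2) * (jinv τ - jinv (up p τ)) *
        ∏ b ∈ Finset.range p, (tp p τ ^ p * (jinv τ - jinv (dn p (b : ℕ) τ))) := by
    rw [Finset.prod_mul_distrib, Finset.prod_const, Finset.card_range, q_eq p τ, Phi]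
    ring
  rw [e1]
  exact h

end P

/-- the translation `τ ↦ τ + 1` -/
theorem tp_T (p : ℕ) [Fact p.Prime] (τ : ℍ) :
    tp p (ModularGroup.T • τ) = zb p 1 * tp p τ := by
  rw [tp_eq, tp_eq, zb, ← Complex.exp_add, modular_T_smul]
  congr 1
  rw [UpperHalfPlane.coe_vadd]
  push_cast
  ring

theorem zb_pow_ne_one (p : ℕ) [hpf : Fact p.Prime] {n : ℕ} (hn : ¬ p ∣ n) : zb p 1 ^ n ≠ 1 := by
  have hp0 : (p : ℂ) ≠ 0 := by exact_mod_cast hpf.out.ne_zero
  have h1 : IsPrimitiveRoot (zb p 1) p := by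
    have := Complex.isPrimitiveRoot_exp p hpf.out.ne_zero
    rwa [zb, Int.cast_one, mul_one]
  intro h
  exact hn ((h1.pow_eq_one_iff_dvd n).mp h)

/-- the coefficients at the `n` prime to `p` are `0` -/
theorem coeff_fP_eq_zero (hA : InvStmt) (p : ℕ) [hpf : Fact p.Prime] {n : ℕ} (hn : ¬ p ∣ n) :
    (fP p).coeff n = 0 := by
  have h0 : (fun n => (fP p).coeff n * (zb p 1 ^ n - 1)) n = 0 := by
    refine coeff_eq_zero (b := fun n => (fP p).coeff n * (zb p 1 ^ n - 1)) (fun t ht0 ht1 => ?_) n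
    have hp0 : (0 : ℝ) < p := by exact_mod_cast hpf.out.pos
    let τ : ℍ := ⟨Function.Periodic.invQParam p t,
      Function.Periodic.im_invQParam_pos_of_norm_lt_one hp0 ht1 ht0⟩
    have hτ : tp p τ = t := Function.Periodic.qParam_right_inv hp0.ne' ht0
    have h1 := hasSum_fP p τ
    have h2 := hasSum_fP p (ModularGroup.T • τ)
    rw [hA p ModularGroup.T τ, tp_T, q_eq p (ModularGroup.T • τ), tp_T, mul_pow, zb_pow, one_mul,
      ← q_eq p τ] at h2
    rw [hτ] at h1 h2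
    have h3 := h2.sub h1
    rw [sub_self] at h3
    refine h3.congr_fun fun m => ?_
    rw [mul_pow]
    ring
  exact (mul_eq_zero.mp h0).resolve_right (sub_ne_zero.mpr (zb_pow_ne_one p hn))

/-- (B) from (A) -/
theorem expStmt_of (hA : InvStmt) : ExpStmt := by
  intro p hpf
  refine ⟨PowerSeries.mk fun n => (fP p).coeff (p * n), ?_, ?_, ?_⟩
  · intro τ
    have h := hasSum_of_xp (p_pos p) (fun n hn => coeff_fP_eq_zero hA p hn) (hasSum_fP p τ)
    refine h.congr_fun fun n => ?_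
    rw [PowerSeries.coeff_mk, q_eq p τ]
  · intro n
    rw [PowerSeries.coeff_mk]
    exact mem_IS.mp (fP_mem p) _
  · rw [PowerSeries.coeff_mk, mul_zero, coeff_zero_fP]

end Fermat.Agent.Cor.Kro
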