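import Fermat.Agent.Corollaries.Kro.Defs
import Fermat.Agent.Corollaries.Ray.FormsMain

/-!
# Singular moduli are algebraic integers, part (D)

Let `a τ² + b τ + c = 0`. The form `x² + b x y + a c y²` represents a prime number
`p = s² + b s u + a c u²` (Weber), and the matrix `(s, -cu; au, s + bu)` of determinant `p` fixes
`τ`. It is the product of an element of `SL₂(ℤ)` and `(p, 0; 0, 1)` or `(1, b'; 0, p)`.
-/

set_option autoImplicit false

noncomputable section

open UpperHalfPlane MatrixGroups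

namespace Fermat.Agent.Cor.Kro

open Fermat.Agent.Cor.Tau (jinv)
open Fermat.Agent.Cor

namespace Zero

theorem exists_smul_eq {A B C D : ℤ} (hdet : A * D - B * C = 1) {w z : ℍ}
    (h : (A : ℂ) * w + B = z * (C * w + D)) : ∃ γ : SL(2, ℤ), γ • w = z := by
  refine ⟨⟨!![A, B; C, D], by rw [Matrix.det_fin_two_of]; exact hdet⟩, ?_⟩
  have h0 : (C : ℂ) * w + D ≠ 0 := by
    intro h0
    have him : (C : ℝ) * w.im = 0 := by
      have h1 := congrArg Complex.im h0
      simpa using h1
    have hC : C = 0 := by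
      rcases mul_eq_zero.mp him with h1 | h1
      · exact_mod_cast h1
      · exact absurd h1 w.im_pos.ne'
    have hD : D = 0 := by
      rw [hC] at h0
      simpa using h0
    rw [hC, hD] at hdet
    simp at hdet
  apply UpperHalfPlane.ext
  rw [UpperHalfPlane.coe_specialLinearGroup_apply, div_eq_iff]
  · simpa using h
  · simpa using h0

theorem exists_b {p : ℕ} [Fact p.Prime] {A B C D : ℤ} (hdet : A * D - B * C = p)
    (h : ¬ ((p : ℤ) ∣ A ∧ (p : ℤ) ∣ C)) :
    ∃ b : ℕ, b < p ∧ (p : ℤ) ∣ B - A * b ∧ (p : ℤ) ∣ D - C * b := by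
  have hdet' : (A : ZMod p) * D - B * C = 0 := by
    have h1 := congrArg (Int.cast : ℤ → ZMod p) hdet
    push_cast at h1
    rw [h1, ZMod.natCast_self]
  have key : ∃ x : ZMod p, (B : ZMod p) - A * x = 0 ∧ (D : ZMod p) - C * x = 0 := by
    by_cases hA : (A : ZMod p) = 0
    · have hC : (C : ZMod p) ≠ 0 := fun hC => h
        ⟨(ZMod.intCast_zmod_eq_zero_iff_dvd A p).mp hA, (ZMod.intCast_zmod_eq_zero_iff_dvd C p).mp hC⟩
      have hB : (B : ZMod p) = 0 := by
        rw [hA] at hdet'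
        have h1 : (B : ZMod p) * C = 0 := by linear_combination -hdet'
        exact (mul_eq_zero.mp h1).resolve_right hC
      refine ⟨D / C, ?_, ?_⟩
      · rw [hA, hB]
        ring
      · rw [mul_div_cancel₀ _ hC, sub_self]
    · have h1 : (A : ZMod p) * (B / A) = B := mul_div_cancel₀ _ hA
      refine ⟨B / A, ?_, ?_⟩
      · rw [h1, sub_self]
      · have h2 : (A : ZMod p) * (D - C * (B / A)) = 0 := by
          linear_combination hdet' - (C : ZMod p) * h1
        exact (mul_eq_zero.mp h2).resolve_left hA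
  obtain ⟨x, h1, h2⟩ := key
  have hx : ((x.val : ℕ) : ZMod p) = x := ZMod.natCast_zmod_val x
  refine ⟨x.val, ZMod.val_lt x, ?_, ?_⟩
  · rw [← ZMod.intCast_zmod_eq_zero_iff_dvd]
    push_cast
    rw [hx]
    exact h1
  · rw [← ZMod.intCast_zmod_eq_zero_iff_dvd]
    push_cast
    rw [hx]
    exact h2

/-- If an integral matrix of determinant `p` fixes `τ`, then `Φ(τ) = 0`. -/
theorem Phi_eq_zero {p : ℕ} [Fact p.Prime] {A B C D : ℤ} (hdet : A * D - B * C = p) {τ : ℍ}
    (h : (A : ℂ) * τ + B = τ * (C * τ + D)) : Phi p τ = 0 := by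
  have hp0 : (p : ℤ) ≠ 0 := by exact_mod_cast (Fact.out : p.Prime).ne_zero
  have hpc : (p : ℂ) ≠ 0 := by exact_mod_cast (Fact.out : p.Prime).ne_zero
  by_cases hAC : (p : ℤ) ∣ A ∧ (p : ℤ) ∣ C
  · obtain ⟨⟨A', rfl⟩, C', rfl⟩ := hAC
    have hdet' : A' * D - B * C' = 1 := by
      refine mul_left_cancel₀ hp0 ?_
      linear_combination hdet
    obtain ⟨γ, hγ⟩ := exists_smul_eq hdet' (w := up p τ) (z := τ) (by
      rw [coe_up]
      push_cast at h
      linear_combination h)
    have h2 : jinv τ = jinv (up p τ) := by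
      conv_lhs => rw [← hγ]
      exact Tau.jinv_smul γ _
    rw [Phi, h2, sub_self, zero_mul]
  · obtain ⟨b, hb, ⟨B', hB'⟩, D', hD'⟩ := exists_b hdet hAC
    have hdet' : A * D' - B' * C = 1 := by
      refine mul_left_cancel₀ hp0 ?_
      linear_combination hdet - A * hD' + C * hB'
    have hBc : (B : ℂ) - A * b = p * B' := by exact_mod_cast congrArg (Int.cast : ℤ → ℂ) hB'
    have hDc : (D : ℂ) - C * b = p * D' := by exact_mod_cast congrArg (Int.cast : ℤ → ℂ) hD'
    obtain ⟨γ, hγ⟩ := exists_smul_eq hdet' (w := dn p (b : ℤ) τ) (z := τ) (by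
      rw [coe_dn]
      push_cast
      field_simp
      linear_combination h - hBc + (τ : ℂ) * hDc)
    have h2 : jinv τ = jinv (dn p (b : ℤ) τ) := by
      conv_lhs => rw [← hγ]
      exact Tau.jinv_smul γ _
    rw [Phi, Finset.prod_eq_zero (Finset.mem_range.mpr hb) (sub_eq_zero.mpr h2), mul_zero]

theorem exists_of_pos {τ : ℍ} {a b c : ℤ} (ha : 0 < a)
    (h : (a : ℂ) * (τ : ℂ) ^ 2 + b * (τ : ℂ) + c = 0) : ∃ (p : ℕ) (_ : Fact p.Prime), Phi p τ = 0 := by
  have hneg : b ^ 2 - 4 * 1 * (a * c) < 0 := by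
    have him : (a : ℝ) * (τ.re * τ.im + τ.im * τ.re) + b * τ.im = 0 := by
      have h1 := congrArg Complex.im h
      simpa [pow_two] using h1
    have hre : (a : ℝ) * (τ.re * τ.re - τ.im * τ.im) + b * τ.re + c = 0 := by
      have h1 := congrArg Complex.re h
      simpa [pow_two] using h1
    have hy := τ.im_pos
    have h2 : 2 * (a : ℝ) * τ.re + b = 0 := by
      have h3 : τ.im * (2 * (a : ℝ) * τ.re + b) = 0 := by linear_combination him
      exact (mul_eq_zero.mp h3).resolve_left hy.ne'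
    have ha' : (0 : ℝ) < a := by exact_mod_cast ha
    have h3 : ((b ^ 2 - 4 * 1 * (a * c) : ℤ) : ℝ) = -(2 * a * τ.im) ^ 2 := by
      push_cast
      linear_combination (2 * (a : ℝ) * τ.re + b) * h2 - 4 * (a : ℝ) * hre
    have h4 : ((b ^ 2 - 4 * 1 * (a * c) : ℤ) : ℝ) < 0 := by
      rw [h3, neg_lt_zero]
      positivity
    exact_mod_cast h4
  have hprim : ∀ q : ℕ, q.Prime → ¬ ((q : ℤ) ∣ 1 ∧ (q : ℤ) ∣ b ∧ (q : ℤ) ∣ a * c) := by
    rintro q hq ⟨h1, -, -⟩
    have h2 : q ∣ 1 := by exact_mod_cast h1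
    exact hq.one_lt.ne' (Nat.dvd_one.mp h2)
  obtain ⟨p, hp, s, u, hsu⟩ := (Ray.infinite_primes_of_prim hprim one_pos hneg).nonempty
  have hfact : Fact p.Prime := ⟨hp⟩
  refine ⟨p, hfact, Phi_eq_zero (A := s) (B := -(c * u)) (C := a * u) (D := s + b * u) ?_ ?_⟩
  · linear_combination hsu
  · push_cast
    linear_combination -(u : ℂ) * h

end Zero

/-- **(D)** every imaginary quadratic `τ` is a zero of some `Φ_p`, `p` prime. -/
theorem zeroStmt : ZeroStmt := by
  intro τ a b c ha h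
  rcases lt_or_gt_of_ne ha with h0 | h0
  · refine Zero.exists_of_pos (a := -a) (b := -b) (c := -c) (by omega) ?_
    push_cast
    linear_combination -h
  · exact Zero.exists_of_pos h0 h

end Fermat.Agent.Cor.Kro

end
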