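import Fermat.Agent.Corollaries.Kro.Main
import Fermat.Agent.Corollaries.Kro.Zero

/-!
# Singular moduli are algebraic integers

`isIntegral_jinv`: `j(τ)` is an algebraic integer for every imaginary quadratic `τ` in the upper
half plane (Kronecker, Weber).
-/

set_option autoImplicit false

noncomputable section

open UpperHalfPlane

namespace Fermat.Agent.Cor.Kro

open Fermat.Agent.Cor.Tau (jinv)

/-- **Singular moduli are algebraic integers** (Kronecker, Weber): `aτ² + bτ + c = 0`, `a, b, c`
integers, `a ≠ 0` ⇒ `j(τ)` is an algebraic integer. -/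
theorem isIntegral_jinv {τ : ℍ} {a b c : ℤ} (ha : a ≠ 0)
    (h : (a : ℂ) * (τ : ℂ) ^ 2 + b * (τ : ℂ) + c = 0) : IsIntegral ℤ (jinv τ) :=
  singStmt_of zeroStmt τ a b c ha h

end Fermat.Agent.Cor.Kro
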