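import Fermat.Agent.Corollaries.Kro.Main

/-!
# The automorphisms of `ℂ` permute the values of `j` at the zeros of `Φ`

`Phi_eq_zero_of_aut`: if `Φ(τ) = 0` and `j(τ') = σ(j(τ))` for an automorphism `σ` of `ℂ`, then
`Φ(τ') = 0`.
-/

set_option autoImplicit false

noncomputable section

open UpperHalfPlane MatrixGroups
open scoped Manifold Real

namespace Fermat.Agent.Cor.Kro

open Fermat.Agent.Cor.Tau (jinv HasExp jser map_jser)

local notation "𝕢" => Function.Periodic.qParam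

theorem map_xp (σ : ℂ →+* ℂ) (k : ℕ) (f : PowerSeries ℂ) :
    PowerSeries.map σ (xp k f) = xp k (PowerSeries.map σ f) := by
  ext n
  rw [PowerSeries.coeff_map, xp, xp, PowerSeries.coeff_mk, PowerSeries.coeff_mk]
  split_ifs
  · rw [PowerSeries.coeff_map]
  · rw [map_zero]

theorem map_rescale' (σ : ℂ →+* ℂ) (z : ℂ) (f : PowerSeries ℂ) :
    PowerSeries.map σ (PowerSeries.rescale z f) =
      PowerSeries.rescale (σ z) (PowerSeries.map σ f) := by
  ext n
  rw [PowerSeries.coeff_map, PowerSeries.coeff_rescale, PowerSeries.coeff_rescale,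
    PowerSeries.coeff_map, map_mul, map_pow]

/-- the factor at the root of unity `z` -/
def fz (p : ℕ) (z : ℂ) : PowerSeries ℂ :=
  xp p (jser ℂ) - PowerSeries.C z⁻¹ * PowerSeries.X ^ (p - 1) * PowerSeries.rescale z (jser ℂ)

theorem map_fz (σ : ℂ →+* ℂ) (p : ℕ) (z : ℂ) : PowerSeries.map σ (fz p z) = fz p (σ z) := by
  rw [fz, fz, map_sub, map_mul, map_mul, map_pow, map_xp, map_rescale', map_jser,
    PowerSeries.map_C, PowerSeries.map_X, map_inv₀]

theorem fb_eq (p : ℕ) (b : ℤ) : fb p b = fz p (zb p b) := rfl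

theorem map_fi (σ : ℂ →+* ℂ) (p : ℕ) : PowerSeries.map σ (fi p) = fi p := by
  rw [fi, map_sub, map_mul, map_pow, map_xp, map_xp, map_jser, PowerSeries.map_X]

section P

variable (p : ℕ) [hpf : Fact p.Prime]

omit hpf in
theorem zb_nat (b : ℕ) : zb p (b : ℤ) = zb p 1 ^ b := by
  rw [zb, zb, ← Complex.exp_nat_mul]
  congr 1
  push_cast
  ring

theorem prim : IsPrimitiveRoot (zb p 1) p := by
  have := Complex.isPrimitiveRoot_exp p hpf.out.ne_zero
  rwa [zb, Int.cast_one, mul_one]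

/-- the product over the roots of unity -/
theorem prod_fb : ∏ b ∈ Finset.range p, fb p (b : ℕ) =
    ∏ z ∈ Polynomial.nthRootsFinset p (1 : ℂ), fz p z := by
  refine Finset.prod_bij (fun b _ => zb p 1 ^ b) ?_ ?_ ?_ ?_
  · intro b _
    rw [Polynomial.mem_nthRootsFinset hpf.out.pos, ← pow_mul, mul_comm, pow_mul, zb_pow, one_pow]
  · intro a ha b hb h
    exact (prim p).pow_inj (Finset.mem_range.mp ha) (Finset.mem_range.mp hb) h
  · intro z hz
    rw [Polynomial.mem_nthRootsFinset hpf.out.pos] at hz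
    obtain ⟨i, hi, h⟩ := (prim p).eq_pow_of_pow_eq_one hz
    exact ⟨i, Finset.mem_range.mpr hi, h⟩
  · intro b _
    rw [fb_eq, zb_nat]

theorem map_fP (σ : ℂ ≃+* ℂ) : PowerSeries.map (σ : ℂ →+* ℂ) (fP p) = fP p := by
  rw [fP, map_mul, map_fi, prod_fb, map_prod]
  congr 1
  refine Finset.prod_bij (fun z _ => σ z) ?_ ?_ ?_ ?_
  · intro z hz
    rw [Polynomial.mem_nthRootsFinset hpf.out.pos] at hz ⊢
    rw [← map_pow, hz, map_one]
  · intro a _ b _ h
    exact σ.injective h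
  · intro z hz
    rw [Polynomial.mem_nthRootsFinset hpf.out.pos] at hz
    refine ⟨σ.symm z, ?_, σ.apply_symm_apply z⟩
    rw [Polynomial.mem_nthRootsFinset hpf.out.pos, ← map_pow, hz, map_one]
  · intro z _
    rw [map_fz]
    rfl

/-- the expansion of `q^{2p} Φ` in `q` -/
theorem hasExp_Phi : HasExp (fun τ => 𝕢 1 (τ : ℂ) ^ (2 * p) * Phi p τ)
    (PowerSeries.mk fun n => (fP p).coeff (p * n)) := by
  intro τ
  have h := hasSum_of_xp (p_pos p) (fun n hn => coeff_fP_eq_zero invStmt p hn) (hasSum_fP p τ)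
  refine h.congr_fun fun n => ?_
  rw [PowerSeries.coeff_mk, q_eq p τ]

/-- **The automorphisms of `ℂ` act on the singular moduli.** -/
theorem Phi_eq_zero_of_aut (σ : ℂ ≃+* ℂ) {τ τ' : ℍ} (h : Phi p τ = 0)
    (hj : jinv τ' = σ (jinv τ)) : Phi p τ' = 0 := by
  let R : Subring ℂ := (σ : ℂ →+* ℂ).eqLocus (RingHom.id ℂ)
  obtain ⟨P, hP1, -, -, hP4⟩ := polyStmt R (2 * p) (Phi p) _ (mdiff_Phi p)
    (fun γ τ => invStmt p γ τ) (hasExp_Phi p) (fun n => by
      rw [PowerSeries.coeff_mk]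
      have h1 := congrArg (fun g : PowerSeries ℂ => g.coeff (p * n)) (map_fP p σ)
      simp only [PowerSeries.coeff_map] at h1
      exact h1)
  have hPσ : P.map (σ : ℂ →+* ℂ) = P := by
    ext n
    rw [Polynomial.coeff_map]
    exact hP1 n
  rw [hP4 τ', hj]
  have h2 : P.eval (σ (jinv τ)) = σ (P.eval (jinv τ)) := by
    conv_lhs => rw [← hPσ]
    exact Polynomial.eval_map_apply (f := (σ : ℂ →+* ℂ)) (p := P) (x := jinv τ)
  rw [h2, ← hP4 τ, h, map_zero]

end P

end Fermat.Agent.Cor.Kro
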