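import Fermat.Agent.Corollaries.Kro.Defs

/-!
# `Φ` is invariant under `SL₂(ℤ)`
-/

set_option autoImplicit false

noncomputable section

open UpperHalfPlane MatrixGroups
open scoped Manifold Real

namespace Fermat.Agent.Cor.Kro

open Fermat.Agent.Cor.Tau (jinv jinv_smul)

theorem jinv_add_one (τ : ℍ) {τ' : ℍ} (h : (τ' : ℂ) = τ + 1) : jinv τ' = jinv τ := by
  have h1 : τ' = ModularGroup.T • τ := by
    rw [modular_T_smul]
    ext
    rw [h, UpperHalfPlane.coe_vadd]
    push_cast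
    ring
  rw [h1, jinv_smul]

theorem jinv_add_nat (n : ℕ) (τ : ℍ) {τ' : ℍ} (h : (τ' : ℂ) = τ + n) : jinv τ' = jinv τ := by
  induction n generalizing τ' with
  | zero =>
    congr 1
    ext
    rw [h, Nat.cast_zero, add_zero]
  | succ n ih =>
    let τ'' : ℍ := ⟨(τ : ℂ) + n, by simpa using τ.im_pos⟩
    have h1 : jinv τ'' = jinv τ := ih (τ' := τ'') rfl
    rw [← h1]
    refine jinv_add_one τ'' ?_
    rw [h]
    show (τ : ℂ) + ((n + 1 : ℕ) : ℂ) = (τ : ℂ) + n + 1
    push_cast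
    ring

theorem jinv_add_int (n : ℤ) (τ : ℍ) {τ' : ℍ} (h : (τ' : ℂ) = τ + n) : jinv τ' = jinv τ := by
  rcases Int.eq_nat_or_neg n with ⟨m, rfl | rfl⟩
  · exact jinv_add_nat m τ (by rw [h, Int.cast_natCast])
  · refine (jinv_add_nat m τ' ?_).symm
    rw [h]
    push_cast
    ring

/-- `j(-1/τ) = j(τ)` -/
theorem jinv_S (τ : ℍ) {τ' : ℍ} (h : (τ' : ℂ) * τ = -1) : jinv τ' = jinv τ := by
  have h0 : (τ : ℂ) ≠ 0 := τ.ne_zero
  have h1 : τ' = ModularGroup.S • τ := by
    rw [modular_S_smul]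
    ext
    show (τ' : ℂ) = (-(τ : ℂ))⁻¹
    refine eq_inv_of_mul_eq_one_left ?_
    linear_combination -h
  rw [h1, jinv_smul]

/-- `j((az + b)/(cz + d)) = j(z)` -/
theorem jinv_mobius {a b c d : ℤ} (h : a * d - b * c = 1) {z z' : ℍ}
    (hz : (z' : ℂ) * ((c : ℂ) * z + d) = (a : ℂ) * z + b) : jinv z' = jinv z := by
  let γ : SL(2, ℤ) := ⟨!![a, b; c, d], by rw [Matrix.det_fin_two_of]; exact h⟩
  have hden : (c : ℂ) * z + d ≠ 0 := by
    intro h0
    rw [h0, mul_zero] at hz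
    have hC : (a : ℂ) * d - b * c = 1 := by exact_mod_cast congrArg (fun n : ℤ => (n : ℂ)) h
    have : (1 : ℂ) = 0 := by
      rw [← hC]
      linear_combination (a : ℂ) * h0 + c * hz
    exact one_ne_zero this
  have h1 : z' = γ • z := by
    ext
    rw [coe_specialLinearGroup_apply]
    have e : ((z' : ℍ) : ℂ) = ((a : ℂ) * z + b) / ((c : ℂ) * z + d) := by
      rw [eq_div_iff hden, hz]
    rw [e]
    simp [γ]
  rw [h1, jinv_smul]

section P

variable (p : ℕ) [hpf : Fact p.Prime]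

/-- `j((τ + b)/p)` depends on `b` modulo `p` only -/
theorem jinv_dn_congr {b c : ℤ} (h : (p : ℤ) ∣ b - c) (τ : ℍ) :
    jinv (dn p b τ) = jinv (dn p c τ) := by
  obtain ⟨k, hk⟩ := h
  have hp0 : (p : ℂ) ≠ 0 := by exact_mod_cast hpf.out.ne_zero
  refine jinv_add_int k _ ?_
  rw [coe_dn, coe_dn]
  have e : (b : ℂ) = c + p * k := by
    have : b = c + p * k := by linarith
    rw [this]
    push_cast
    ring
  rw [e]
  field_simp
  ring

/-- `j((τ + b)/p)` for `b` modulo `p` -/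
def jd (b : ZMod p) (τ : ℍ) : ℂ := jinv (dn p (b.val : ℤ) τ)

theorem jd_eq (b : ℤ) (τ : ℍ) : jinv (dn p b τ) = jd p (b : ZMod p) τ := by
  rw [jd]
  refine jinv_dn_congr p ?_ τ
  rw [← ZMod.intCast_zmod_eq_zero_iff_dvd]
  simp

theorem Phi_eq (τ : ℍ) :
    Phi p τ = (jinv τ - jinv (up p τ)) * ∏ b : ZMod p, (jinv τ - jd p b τ) := by
  rw [Phi]
  congr 1
  have : NeZero p := ⟨hpf.out.ne_zero⟩
  refine Finset.prod_bij (fun b _ => (b : ZMod p)) (fun _ _ => Finset.mem_univ _) ?_ ?_ ?_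
  · intro a ha b hb hab
    rw [Finset.mem_range] at ha hb
    have h := congrArg ZMod.val hab
    rwa [ZMod.val_natCast_of_lt ha, ZMod.val_natCast_of_lt hb] at h
  · intro b _
    exact ⟨b.val, Finset.mem_range.mpr b.val_lt, ZMod.natCast_zmod_val b⟩
  · intro b _
    rw [jd_eq p (b : ℕ) τ]
    simp

theorem coe_T (τ : ℍ) : ((ModularGroup.T • τ : ℍ) : ℂ) = τ + 1 := by
  rw [modular_T_smul, UpperHalfPlane.coe_vadd]
  push_cast
  ring

theorem jd_T (b : ZMod p) (τ : ℍ) : jd p b (ModularGroup.T • τ) = jd p (b + 1) τ := by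
  have h3 : dn p (b.val : ℤ) (ModularGroup.T • τ) = dn p ((b.val : ℤ) + 1) τ := by
    ext
    rw [coe_dn, coe_dn, coe_T]
    push_cast
    ring
  rw [jd, h3, jd_eq]
  push_cast
  rw [ZMod.natCast_zmod_val]

theorem jup_T (τ : ℍ) : jinv (up p (ModularGroup.T • τ)) = jinv (up p τ) := by
  refine jinv_add_nat p _ ?_
  rw [coe_up, coe_up, coe_T]
  ring

/-- the translation -/
theorem Phi_T (τ : ℍ) : Phi p (ModularGroup.T • τ) = Phi p τ := by
  rw [Phi_eq, Phi_eq, jinv_smul, jup_T]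
  have hb : Function.Bijective fun b : ZMod p => b + 1 :=
    ⟨fun a b h => add_right_cancel h, fun b => ⟨b - 1, sub_add_cancel b 1⟩⟩
  have key := Fintype.prod_bijective (fun b : ZMod p => b + 1) hb
    (fun b => jinv τ - jd p b (ModularGroup.T • τ)) (fun b => jinv τ - jd p b τ)
    (fun b => congrArg (fun x => jinv τ - x) (jd_T p b τ))
  exact congrArg (fun x => (jinv τ - jinv (up p τ)) * x) key

theorem coe_S (τ : ℍ) : ((ModularGroup.S • τ : ℍ) : ℂ) * τ = -1 := by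
  rw [modular_S_smul]
  show (-(τ : ℂ))⁻¹ * τ = -1
  have h0 : (τ : ℂ) ≠ 0 := τ.ne_zero
  rw [inv_neg, neg_mul, inv_mul_cancel₀ h0]

theorem jup_S (τ : ℍ) : jinv (up p (ModularGroup.S • τ)) = jd p 0 τ := by
  have hp0 : (p : ℂ) ≠ 0 := by exact_mod_cast hpf.out.ne_zero
  rw [jd]
  refine jinv_S _ ?_
  rw [coe_up, coe_dn, ZMod.val_zero]
  push_cast
  field_simp
  linear_combination coe_S τ

theorem jd_zero_S (τ : ℍ) : jd p 0 (ModularGroup.S • τ) = jinv (up p τ) := by
  have hp0 : (p : ℂ) ≠ 0 := by exact_mod_cast hpf.out.ne_zero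
  rw [jd]
  refine jinv_S _ ?_
  rw [coe_up, coe_dn, ZMod.val_zero]
  push_cast
  field_simp
  linear_combination coe_S τ

theorem jd_S {b : ZMod p} (hb : b ≠ 0) (τ : ℍ) :
    jd p b (ModularGroup.S • τ) = jd p (-b⁻¹) τ := by
  have hp0 : (p : ℂ) ≠ 0 := by exact_mod_cast hpf.out.ne_zero
  have h1 : (p : ℤ) ∣ -1 - (b.val : ℤ) * ((-b⁻¹).val : ℤ) := by
    rw [← ZMod.intCast_zmod_eq_zero_iff_dvd]
    push_cast
    rw [ZMod.natCast_zmod_val, ZMod.natCast_zmod_val, mul_neg, mul_inv_cancel₀ hb]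
    ring
  obtain ⟨k, hk⟩ := h1
  rw [jd, jd]
  generalize (-b⁻¹).val = c at hk ⊢
  refine jinv_mobius (a := b.val) (b := k) (c := p) (d := -(c : ℤ)) ?_ ?_
  · linear_combination hk
  · have hkC : (-1 : ℂ) - (b.val : ℂ) * (c : ℂ) = p * k := by
      exact_mod_cast congrArg (fun n : ℤ => (n : ℂ)) hk
    have hS := coe_S τ
    rw [coe_dn, coe_dn]
    push_cast
    field_simp
    linear_combination hS + hkC

/-- the inversion -/
theorem Phi_S (τ : ℍ) : Phi p (ModularGroup.S • τ) = Phi p τ := by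
  classical
  rw [Phi_eq, Phi_eq, jinv_smul, jup_S,
    ← Finset.mul_prod_erase Finset.univ (fun b => jinv τ - jd p b (ModularGroup.S • τ))
      (Finset.mem_univ (0 : ZMod p)),
    ← Finset.mul_prod_erase Finset.univ (fun b => jinv τ - jd p b τ)
      (Finset.mem_univ (0 : ZMod p)), jd_zero_S]
  have key : ∏ b ∈ Finset.univ.erase (0 : ZMod p), (jinv τ - jd p b (ModularGroup.S • τ)) =
      ∏ b ∈ Finset.univ.erase (0 : ZMod p), (jinv τ - jd p b τ) := by
    refine Finset.prod_bij (fun b _ => -b⁻¹) ?_ ?_ ?_ ?_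
    · intro b hb
      rw [Finset.mem_erase] at hb ⊢
      exact ⟨neg_ne_zero.mpr (inv_ne_zero hb.1), Finset.mem_univ _⟩
    · intro a _ b _ h
      exact inv_injective (neg_injective h)
    · intro b hb
      rw [Finset.mem_erase] at hb
      refine ⟨-b⁻¹, Finset.mem_erase.mpr ⟨neg_ne_zero.mpr (inv_ne_zero hb.1),
        Finset.mem_univ _⟩, ?_⟩
      rw [inv_neg, inv_inv, neg_neg]
    · intro b hb
      rw [Finset.mem_erase] at hb
      rw [jd_S p hb.1]
  rw [key]
  ring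

end P

/-- (A) -/
theorem invStmt : InvStmt := by
  intro p hpf γ τ
  have hmem : γ ∈ Subgroup.closure {ModularGroup.S, ModularGroup.T} := by
    rw [SpecialLinearGroup.SL2Z_generators]
    exact Subgroup.mem_top γ
  induction hmem using Subgroup.closure_induction generalizing τ with
  | mem x hx =>
    rcases hx with rfl | hx
    · exact Phi_S p τ
    · rw [Set.mem_singleton_iff] at hx
      rw [hx]
      exact Phi_T p τ
  | one => rw [one_smul]
  | mul x y _ _ hx hy => rw [mul_smul, hx, hy]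
  | inv x _ hx =>
    have h := hx (x⁻¹ • τ)
    rw [smul_inv_smul] at h
    exact h.symm

end Fermat.Agent.Cor.Kro
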