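import Fermat.Agent.Corollaries.Kro.Symm

/-!
# The modular equation is irreducible

`irreducible_modPol`: `Φ_p` is irreducible over `ℂ[Y]`, `irreducible_modPol_ratFunc`: over `ℂ(Y)`.
`natDegree_diag`, `leadingCoeff_diag`: `Φ_p(X, X)` has degree `2p` and leading coefficient `-1`.
-/

set_option autoImplicit false

noncomputable section

open UpperHalfPlane MatrixGroups
open scoped Manifold Real Polynomial

namespace Fermat.Agent.Cor.Kro

open Fermat.Agent.Cor.Tau (jinv HasExp jser map_jser hasSum_mul jinv_smul jinv_surjective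
  hasExp_qj)

local notation "𝕢" => Function.Periodic.qParam

section P

variable (p : ℕ) [hpf : Fact p.Prime]

/-- `F` has a Laurent expansion in `t = q^{1/p}` -/
def LE' (F : ℍ → ℂ) : Prop :=
  ∃ (m : ℕ) (g : PowerSeries ℂ),
    ∀ τ, HasSum (fun n : ℕ => g.coeff n * tp p τ ^ n) (tp p τ ^ m * F τ)

variable {p}

omit hpf in
theorem LE'.mul {F G : ℍ → ℂ} (hF : LE' p F) (hG : LE' p G) : LE' p fun τ => F τ * G τ := by
  obtain ⟨m, f, hf⟩ := hF
  obtain ⟨m', g, hg⟩ := hG
  refine ⟨m + m', f * g, fun τ => ?_⟩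
  have h := hasSum_mul (hf τ) (hg τ)
  have e : tp p τ ^ (m + m') * (F τ * G τ) = tp p τ ^ m * F τ * (tp p τ ^ m' * G τ) := by ring
  beta_reduce
  rw [e]
  exact h

omit hpf in
theorem LE'.add {F G : ℍ → ℂ} (hF : LE' p F) (hG : LE' p G) : LE' p fun τ => F τ + G τ := by
  obtain ⟨m, f, hf⟩ := hF
  obtain ⟨m', g, hg⟩ := hG
  refine ⟨m + m', PowerSeries.X ^ m' * f + PowerSeries.X ^ m * g, fun τ => ?_⟩
  have h := (hasSum_mul (hasSum_X_pow m' (tp p τ)) (hf τ)).add
    (hasSum_mul (hasSum_X_pow m (tp p τ)) (hg τ))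
  have e : tp p τ ^ (m + m') * (F τ + G τ) =
      tp p τ ^ m' * (tp p τ ^ m * F τ) + tp p τ ^ m * (tp p τ ^ m' * G τ) := by ring
  beta_reduce
  rw [e]
  refine h.congr_fun fun n => ?_
  rw [map_add, add_mul]

omit hpf in
theorem LE'.const (c : ℂ) : LE' p fun _ => c := by
  refine ⟨0, PowerSeries.C c, fun τ => ?_⟩
  rw [pow_zero, one_mul]
  exact hasSum_C c _

omit hpf in
theorem LE'.pow {F : ℍ → ℂ} (hF : LE' p F) (n : ℕ) : LE' p fun τ => F τ ^ n := by
  induction n with
  | zero =>
    simp only [pow_zero]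
    exact LE'.const 1
  | succ n ih =>
    simp only [pow_succ]
    exact ih.mul hF

theorem LE'.zero_or {F G : ℍ → ℂ} (hF : LE' p F) (hG : LE' p G) (h : ∀ τ, F τ * G τ = 0) :
    (∀ τ, F τ = 0) ∨ ∀ τ, G τ = 0 := by
  obtain ⟨m, f, hf⟩ := hF
  obtain ⟨m', g, hg⟩ := hG
  have h0 : f * g = 0 := by
    ext n
    rw [map_zero]
    refine coeff_eq_zero (b := fun n => (f * g).coeff n) (fun t ht0 ht1 => ?_) n
    have hp0 : (0 : ℝ) < p := by exact_mod_cast hpf.out.pos
    let τ : ℍ := ⟨Function.Periodic.invQParam p t,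
      Function.Periodic.im_invQParam_pos_of_norm_lt_one hp0 ht1 ht0⟩
    have hτ : tp p τ = t := Function.Periodic.qParam_right_inv hp0.ne' ht0
    have h1 := hasSum_mul (hf τ) (hg τ)
    have e : tp p τ ^ m * F τ * (tp p τ ^ m' * G τ) = 0 := by
      rw [mul_mul_mul_comm, h τ, mul_zero]
    rw [e, hτ] at h1
    exact h1
  have key : ∀ (m : ℕ) (F : ℍ → ℂ), (∀ τ, HasSum (fun n : ℕ => (0 : PowerSeries ℂ).coeff n *
      tp p τ ^ n) (tp p τ ^ m * F τ)) → ∀ τ, F τ = 0 := by
    intro m F hF τ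
    have h1 : tp p τ ^ m * F τ = 0 := by
      refine (hF τ).unique ?_
      simp
    exact (mul_eq_zero.mp h1).resolve_left (pow_ne_zero _ (Complex.exp_ne_zero _))
  rcases mul_eq_zero.mp h0 with rfl | rfl
  · exact Or.inl (key m F hf)
  · exact Or.inr (key m' G hg)

variable (p)

theorem LE'_j : LE' p jinv := by
  refine ⟨p, xp p (jser ℂ), fun τ => hasSum_xp (p_pos p) ?_⟩
  have h := hasExp_qj τ
  rw [Tau.qj, q_eq p τ] at h
  exact h

theorem LE'_up : LE' p fun τ => jinv (up p τ) :=
  ⟨p ^ 2, xp (p ^ 2) (jser ℂ), fun τ => hasSum_up p τ⟩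

theorem LE'_poly (F : ℂ[X][X]) : LE' p fun τ => F.evalEval (jinv τ) (jinv (up p τ)) := by
  induction F using Polynomial.induction_on' with
  | add f g hf hg =>
    simp only [Polynomial.evalEval_add]
    exact hf.add hg
  | monomial n a =>
    induction a using Polynomial.induction_on' with
    | add f g hf hg =>
      simp only [map_add, Polynomial.evalEval_add]
      exact hf.add hg
    | monomial m r =>
      have e : (fun τ : ℍ => (Polynomial.monomial n (Polynomial.monomial m r) : ℂ[X][X]).evalEval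
          (jinv τ) (jinv (up p τ))) = fun τ => r * jinv τ ^ m * jinv (up p τ) ^ n := by
        funext τ
        simp [Polynomial.evalEval]
      rw [e]
      exact ((LE'.const r).mul ((LE'_j p).pow m)).mul ((LE'_up p).pow n)

theorem injOn_roots {τ : ℍ} (hτ : Dd p τ ≠ 0) : Set.InjOn
    (fun i : ℕ => if i < p then jinv (dn p (i : ℕ) τ) else jinv (up p τ))
    (Finset.range (p + 1)) := by
  obtain ⟨h1, h2⟩ := mul_ne_zero_iff.mp hτ
  rw [Finset.prod_ne_zero_iff] at h1 h2
  have h2' : ∀ b < p, ∀ b' < p, b ≠ b' → jinv (dn p (b : ℕ) τ) ≠ jinv (dn p (b' : ℕ) τ) := by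
    intro b hb b' hb' hbb
    have h3 := h2 b (Finset.mem_range.mpr hb)
    rw [Finset.prod_ne_zero_iff] at h3
    exact sub_ne_zero.mp (h3 b' (Finset.mem_erase.mpr ⟨Ne.symm hbb, Finset.mem_range.mpr hb'⟩))
  intro a ha b hb hab
  rw [Finset.coe_range, Set.mem_Iio] at ha hb
  beta_reduce at hab
  split_ifs at hab with h3 h4 h4
  · by_contra hne
    exact h2' a h3 b h4 hne hab
  · exact (h1 a (Finset.mem_range.mpr h3) (sub_eq_zero.mpr hab.symm)).elim
  · exact (h1 b (Finset.mem_range.mpr h4) (sub_eq_zero.mpr hab)).elim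
  · omega

/-- the values at `pτ` for all `τ` give the values at `(τ + b)/p` -/
theorem exists_smul (b : ℤ) (τ : ℍ) : ∃ γ : SL(2, ℤ), jinv (up p (γ • τ)) = jinv (dn p b τ) := by
  refine ⟨ModularGroup.S * ModularGroup.T ^ b, ?_⟩
  rw [mul_smul, jup_S]
  have h0 : jd p 0 (ModularGroup.T ^ b • τ) = jinv (dn p 0 (ModularGroup.T ^ b • τ)) := by
    rw [jd_eq, Int.cast_zero]
  rw [h0]
  congr 1
  ext
  rw [coe_dn, coe_dn, ModularGroup.coe_T_zpow_smul_eq, Int.cast_zero, add_zero]

/-- a relation between `j(pτ)` and `j(τ)` has degree at least `p + 1` -/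
theorem natDegree_ge {F : ℂ[X][X]} (hF : F.Monic)
    (h : ∀ τ : ℍ, F.evalEval (jinv τ) (jinv (up p τ)) = 0) : p + 1 ≤ F.natDegree := by
  by_contra hlt
  push Not at hlt
  obtain ⟨τ, hτ, -⟩ := exists_tau p (P := 1) one_ne_zero
  have h1 : F.map (Polynomial.evalRingHom (jinv τ)) = 0 := by
    refine Polynomial.eq_zero_of_degree_lt_of_eval_index_eq_zero (s := Finset.range (p + 1))
      (injOn_roots p hτ) ?_ ?_
    · rw [Finset.card_range]
      refine Polynomial.degree_le_natDegree.trans_lt (Nat.cast_lt.mpr ?_)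
      exact Polynomial.natDegree_map_le.trans_lt hlt
    · intro i _
      rw [Polynomial.map_evalRingHom_eval]
      split_ifs with h3
      · obtain ⟨γ, hγ⟩ := exists_smul p (i : ℕ) τ
        rw [← hγ]
        have h4 := h (γ • τ)
        rwa [jinv_smul] at h4
      · exact h τ
  exact (hF.map _).ne_zero h1

/-- `Φ_p` as a polynomial over `ℂ[Y]` -/
def modPolC : ℂ[X][X] := (modPol p).map (Polynomial.mapRingHom (Int.castRingHom ℂ))

theorem map_modPolC (τ : ℍ) :
    (modPolC p).map (Polynomial.evalRingHom (jinv τ)) = Psi p τ := by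
  rw [modPolC, Polynomial.map_map, ← map_modPol]
  congr 1
  refine RingHom.ext fun P => ?_
  rw [RingHom.comp_apply, Polynomial.coe_mapRingHom, Polynomial.coe_evalRingHom,
    Polynomial.eval_map]
  rfl

/-- **The modular equation is irreducible** over `ℂ[Y]`. -/
theorem irreducible_modPol : Irreducible (modPolC p) := by
  have hm : (modPolC p).Monic := (monic_modPol p).map _
  have hdeg : (modPolC p).natDegree = p + 1 := by
    rw [modPolC, (monic_modPol p).natDegree_map, natDegree_modPol]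
  rw [hm.irreducible_iff_natDegree]
  refine ⟨fun h1 => ?_, fun f g hf hg hfg => ?_⟩
  · rw [h1, Polynomial.natDegree_one] at hdeg
    omega
  · have h2 : f.natDegree + g.natDegree = p + 1 := by
      rw [← hf.natDegree_mul hg, hfg, hdeg]
    have h3 : ∀ τ : ℍ, f.evalEval (jinv τ) (jinv (up p τ)) *
        g.evalEval (jinv τ) (jinv (up p τ)) = 0 := by
      intro τ
      rw [← Polynomial.evalEval_mul, hfg, ← Polynomial.map_evalRingHom_eval, map_modPolC,
        ← map_modPol]
      exact modPol_eq_zero p τ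
    rcases (LE'_poly p f).zero_or (LE'_poly p g) h3 with h | h
    · have := natDegree_ge p hf h
      omega
    · have := natDegree_ge p hg h
      omega

/-- **The modular equation is irreducible** over `ℂ(Y)`. -/
theorem irreducible_modPol_ratFunc :
    Irreducible ((modPolC p).map (algebraMap ℂ[X] (RatFunc ℂ))) :=
  (Polynomial.Monic.irreducible_iff_irreducible_map_fraction_map
    ((monic_modPol p).map _)).mp (irreducible_modPol p)

/-! ### The diagonal -/

theorem ev_diag (τ : ℍ) : ev τ ((modPol p).eval Polynomial.X) = Phi p τ := by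
  have h4 : ((modPol p).map (ev τ)).eval (jinv τ) = Phi p τ := by
    rw [map_modPol, Psi, Phi, Polynomial.eval_mul, Polynomial.eval_prod]
    simp only [Polynomial.eval_sub, Polynomial.eval_X, Polynomial.eval_C]
  have h : ev τ Polynomial.X = jinv τ := Polynomial.aeval_X (jinv τ)
  rw [← h4]
  conv_rhs => rw [← h]
  exact (Polynomial.eval_map_apply (f := ev τ) (p := modPol p) (x := Polynomial.X)).symm

theorem diag_aux : ((modPol p).eval Polynomial.X).natDegree ≤ 2 * p ∧
    ((modPol p).eval Polynomial.X).coeff (2 * p) = -1 := by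
  obtain ⟨f, hf1, -, hf3⟩ := expStmt_of invStmt p
  obtain ⟨P, -, hP2, hP3, hP4⟩ := polyStmt ⊤ (2 * p) (Phi p) f (mdiff_Phi p)
    (fun γ τ => invStmt p γ τ) hf1 (fun n => Subring.mem_top _)
  have h1 : ((modPol p).eval Polynomial.X).map (Int.castRingHom ℂ) = P := by
    refine Polynomial.funext fun x => ?_
    obtain ⟨τ, rfl⟩ := jinv_surjective x
    rw [← hP4 τ, ← ev_diag, Polynomial.eval_map]
    rfl
  refine ⟨?_, ?_⟩
  · rw [← h1, Polynomial.natDegree_map_eq_of_injective (RingHom.injective_int _)] at hP2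
    exact hP2
  · rw [← h1, Polynomial.coeff_map, hf3, eq_intCast] at hP3
    exact_mod_cast hP3

/-- `Φ_p(X, X)` has degree `2p` -/
theorem natDegree_diag : ((modPol p).eval Polynomial.X).natDegree = 2 * p := by
  obtain ⟨h1, h2⟩ := diag_aux p
  refine le_antisymm h1 (Polynomial.le_natDegree_of_ne_zero ?_)
  rw [h2]
  exact neg_ne_zero.mpr one_ne_zero

/-- `Φ_p(X, X)` has leading coefficient `-1` -/
theorem leadingCoeff_diag : ((modPol p).eval Polynomial.X).leadingCoeff = -1 := by
  rw [Polynomial.leadingCoeff, natDegree_diag]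
  exact (diag_aux p).2

end P

end Fermat.Agent.Cor.Kro
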