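import Fermat.Agent.Corollaries.Kro.Irred

/-!
# The modular equation of level 2

`modPol_two`: `Φ₂ = X³ + Y³ - X²Y² + 1488 (X²Y + XY²) - 162000 (X² + Y²) + 40773375 XY
+ 8748000000 (X + Y) - 157464000000000`.
`jinv_two_I`: `j(2i) = 66³`, `jinv_two_rho`: `j(√-3) = 54000`.
-/

set_option autoImplicit false

noncomputable section

open UpperHalfPlane MatrixGroups
open scoped Manifold Real Polynomial

namespace Fermat.Agent.Cor.Kro

open Fermat.Agent.Cor.Tau (jinv HasExp jser map_jser hasSum_mul jinv_smul jinv_surjective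
  hasExp_qj jcoeff_values coeff_jser_succ jinv_I jinv_rho)

instance fact_two' : Fact (Nat.Prime 2) := ⟨Nat.prime_two⟩

theorem cubic (u v w : ℂ) : ((Polynomial.X - Polynomial.C u) *
      ((Polynomial.X - Polynomial.C v) * (Polynomial.X - Polynomial.C w)) : ℂ[X]) =
    Polynomial.X ^ 3 + Polynomial.C (-(u + v + w)) * Polynomial.X ^ 2 +
      Polynomial.C (u * v + u * w + v * w) * Polynomial.X + Polynomial.C (-(u * v * w)) := by
  simp only [Polynomial.C_neg, Polynomial.C_add, Polynomial.C_mul]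
  ring

theorem Psi_two (τ : ℍ) : Psi 2 τ =
    (Polynomial.X - Polynomial.C (jinv (up 2 τ))) *
      ((Polynomial.X - Polynomial.C (jinv (dn 2 0 τ))) *
        (Polynomial.X - Polynomial.C (jinv (dn 2 1 τ)))) := by
  rw [Psi, Finset.prod_range_succ, Finset.prod_range_succ, Finset.prod_range_zero, one_mul]
  rfl

/-- the coefficients of `Φ₂` -/
def mc (i j : ℕ) : ℤ := ((modPol 2).coeff i).coeff j

theorem mc_symm (i j : ℕ) : mc i j = mc j i := coeff_modPol_symm 2 i j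

theorem modPol_two_coeff_three : (modPol 2).coeff 3 = 1 := by
  have := monic_modPol 2
  rwa [Polynomial.Monic, Polynomial.leadingCoeff, natDegree_modPol] at this

theorem mc_three (i : ℕ) : mc i 3 = if i = 0 then 1 else 0 := by
  rw [mc_symm, mc, modPol_two_coeff_three, Polynomial.coeff_one]

theorem coeff_Psi_two (k : ℕ) (τ : ℍ) : (Psi 2 τ).coeff k =
    mc k 0 + mc k 1 * jinv τ + mc k 2 * jinv τ ^ 2 + mc k 3 * jinv τ ^ 3 := by
  have h : (Psi 2 τ).coeff k = Polynomial.aeval (jinv τ) ((modPol 2).coeff k) := by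
    rw [← map_modPol, Polynomial.coeff_map]
    rfl
  rw [h, Polynomial.aeval_eq_sum_range' (n := 4)
    ((natDegree_coeff_modPol 2 k).trans_lt (by norm_num)), Finset.sum_range_succ,
    Finset.sum_range_succ, Finset.sum_range_succ, Finset.sum_range_succ, Finset.sum_range_zero]
  simp only [zsmul_eq_mul, pow_zero, mul_one, pow_one, zero_add]
  rfl

theorem psi_coeff_two (τ : ℍ) : (Psi 2 τ).coeff 2 =
    -(jinv (up 2 τ) + jinv (dn 2 0 τ) + jinv (dn 2 1 τ)) := by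
  rw [Psi_two, cubic]
  simp only [Polynomial.coeff_add, Polynomial.coeff_C_mul, Polynomial.coeff_X_pow,
    Polynomial.coeff_C, Polynomial.coeff_X]
  norm_num

theorem psi_coeff_one (τ : ℍ) : (Psi 2 τ).coeff 1 =
    jinv (up 2 τ) * jinv (dn 2 0 τ) + jinv (up 2 τ) * jinv (dn 2 1 τ) +
      jinv (dn 2 0 τ) * jinv (dn 2 1 τ) := by
  rw [Psi_two, cubic]
  simp only [Polynomial.coeff_add, Polynomial.coeff_C_mul, Polynomial.coeff_X_pow,
    Polynomial.coeff_C, Polynomial.coeff_X]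
  norm_num

theorem psi_coeff_zero (τ : ℍ) : (Psi 2 τ).coeff 0 =
    -(jinv (up 2 τ) * jinv (dn 2 0 τ) * jinv (dn 2 1 τ)) := by
  rw [Psi_two, cubic]
  simp only [Polynomial.coeff_add, Polynomial.coeff_C_mul, Polynomial.coeff_X_pow,
    Polynomial.coeff_C, Polynomial.coeff_X]
  norm_num

theorem zb_two_one : zb 2 1 = -1 := by
  rw [zb, ← Complex.exp_pi_mul_I]
  congr 1
  push_cast
  ring

theorem zb_two_zero : zb 2 0 = 1 := by
  rw [zb]
  simp

theorem J1 : (jser ℂ).coeff 1 = 744 := by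
  have h := coeff_jser_succ (A := ℂ) 0
  rw [jcoeff_values.1] at h
  rw [zero_add] at h
  rw [h]
  norm_num

theorem J2 : (jser ℂ).coeff 2 = 196884 := by
  have h := coeff_jser_succ (A := ℂ) 1
  rw [jcoeff_values.2.1] at h
  rw [show 1 + 1 = 2 from rfl] at h
  rw [h]
  norm_num

theorem ser_two : xp (2 ^ 2) (jser ℂ) +
    PowerSeries.X ^ 3 * (PowerSeries.C (zb 2 0)⁻¹ * PowerSeries.rescale (zb 2 0) (jser ℂ)) +
    PowerSeries.X ^ 3 * (PowerSeries.C (zb 2 1)⁻¹ * PowerSeries.rescale (zb 2 1) (jser ℂ)) +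
    PowerSeries.X ^ 4 * PowerSeries.C (mc 2 0 : ℂ) +
    PowerSeries.X ^ 2 * (PowerSeries.C (mc 2 1 : ℂ) * xp 2 (jser ℂ)) +
    PowerSeries.C (mc 2 2 : ℂ) * xp 2 (jser ℂ) ^ 2 = 0 := by
  ext n
  rw [map_zero]
  refine coeff_eq_zero (b := fun n => PowerSeries.coeff n (xp (2 ^ 2) (jser ℂ) +
    PowerSeries.X ^ 3 * (PowerSeries.C (zb 2 0)⁻¹ * PowerSeries.rescale (zb 2 0) (jser ℂ)) +
    PowerSeries.X ^ 3 * (PowerSeries.C (zb 2 1)⁻¹ * PowerSeries.rescale (zb 2 1) (jser ℂ)) +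
    PowerSeries.X ^ 4 * PowerSeries.C (mc 2 0 : ℂ) +
    PowerSeries.X ^ 2 * (PowerSeries.C (mc 2 1 : ℂ) * xp 2 (jser ℂ)) +
    PowerSeries.C (mc 2 2 : ℂ) * xp 2 (jser ℂ) ^ 2)) (fun t ht0 ht1 => ?_) n
  have hp0 : (0 : ℝ) < (2 : ℕ) := by norm_num
  let τ : ℍ := ⟨Function.Periodic.invQParam (2 : ℕ) t,
    Function.Periodic.im_invQParam_pos_of_norm_lt_one hp0 ht1 ht0⟩
  have hτ : tp 2 τ = t := Function.Periodic.qParam_right_inv hp0.ne' ht0
  have hJ : HasSum (fun n : ℕ => (xp 2 (jser ℂ)).coeff n * tp 2 τ ^ n)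
      (tp 2 τ ^ 2 * jinv τ) := by
    refine hasSum_xp (p_pos 2) ?_
    have h := hasExp_qj τ
    rw [Tau.qj, q_eq 2 τ] at h
    exact h
  have h1 := hasSum_up 2 τ
  have h2 := hasSum_mul (hasSum_X_pow 3 (tp 2 τ)) (hasSum_dn 2 0 τ)
  have h3 := hasSum_mul (hasSum_X_pow 3 (tp 2 τ)) (hasSum_dn 2 1 τ)
  have h4 := hasSum_mul (hasSum_X_pow 4 (tp 2 τ)) (hasSum_C (mc 2 0 : ℂ) (tp 2 τ))
  have h5 := hasSum_mul (hasSum_X_pow 2 (tp 2 τ)) (hasSum_mul (hasSum_C (mc 2 1 : ℂ) (tp 2 τ)) hJ)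
  have h6 := hasSum_mul (hasSum_C (mc 2 2 : ℂ) (tp 2 τ)) (hasSum_pow' hJ 2)
  have h := ((((h1.add h2).add h3).add h4).add h5).add h6
  have e : tp 2 τ ^ 2 ^ 2 * jinv (up 2 τ) + tp 2 τ ^ 3 * (tp 2 τ * jinv (dn 2 0 τ)) +
      tp 2 τ ^ 3 * (tp 2 τ * jinv (dn 2 1 τ)) + tp 2 τ ^ 4 * (mc 2 0 : ℂ) +
      tp 2 τ ^ 2 * ((mc 2 1 : ℂ) * (tp 2 τ ^ 2 * jinv τ)) +
      (mc 2 2 : ℂ) * (tp 2 τ ^ 2 * jinv τ) ^ 2 = 0 := by
    have h7 := coeff_Psi_two 2 τ
    rw [psi_coeff_two, mc_three, if_neg (by norm_num), Int.cast_zero, zero_mul, add_zero] at h7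
    linear_combination (-tp 2 τ ^ 4) * h7
  rw [e, hτ] at h
  refine h.congr_fun fun m => ?_
  simp only [map_add, add_mul]

theorem mc_two_two : mc 2 2 = -1 := by
  have h := congrArg (PowerSeries.coeff 0) ser_two
  have h2 : (xp 2 (jser ℂ) ^ 2).coeff 0 = 1 := by
    rw [sq, coeff_zero_mul', coeff_zero_xp, coeff_zero_jser', mul_one]
  simp only [map_add, coeff_zero_xp, coeff_zero_jser', PowerSeries.coeff_X_pow_mul',
    PowerSeries.coeff_C_mul, h2, map_zero] at h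
  norm_num at h
  have h3 : ((1 + mc 2 2 : ℤ) : ℂ) = 0 := by
    push_cast
    exact h
  have h4 : 1 + mc 2 2 = 0 := by exact_mod_cast h3
  linarith

theorem coeff_xp_two (n : ℕ) :
    (xp 2 (jser ℂ)).coeff n = if 2 ∣ n then (jser ℂ).coeff (n / 2) else 0 := by
  rw [xp, PowerSeries.coeff_mk]

theorem mc_two_one : mc 2 1 = 1488 := by
  have h := congrArg (PowerSeries.coeff 2) ser_two
  have h2 : (xp 2 (jser ℂ) ^ 2).coeff 2 = 1488 := by
    rw [sq, PowerSeries.coeff_mul]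
    simp [Finset.Nat.antidiagonal_succ, coeff_xp_two, J1, coeff_zero_jser']
    norm_num
  have h3 : (xp (2 ^ 2) (jser ℂ)).coeff 2 = 0 := by
    rw [xp, PowerSeries.coeff_mk, if_neg (by norm_num)]
  simp only [map_add, h3, PowerSeries.coeff_X_pow_mul', PowerSeries.coeff_C_mul, h2,
    map_zero] at h
  norm_num [coeff_zero_xp, coeff_zero_jser', mc_two_two] at h
  have h5 : ((mc 2 1 : ℤ) : ℂ) = (1488 : ℤ) := by
    push_cast
    linear_combination h
  exact_mod_cast h5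

theorem mc_two_zero : mc 2 0 = -162000 := by
  have h := congrArg (PowerSeries.coeff 4) ser_two
  have h2 : (xp 2 (jser ℂ) ^ 2).coeff 4 = 947304 := by
    rw [sq, PowerSeries.coeff_mul]
    simp [Finset.Nat.antidiagonal_succ, coeff_xp_two, J1, J2, coeff_zero_jser']
    norm_num
  have h3 : (xp (2 ^ 2) (jser ℂ)).coeff 4 = 744 := by
    rw [xp, PowerSeries.coeff_mk, if_pos (by norm_num)]
    norm_num
    exact J1
  have h4 : (xp 2 (jser ℂ)).coeff 2 = 744 := by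
    rw [coeff_xp_two, if_pos (by norm_num)]
    norm_num
    exact J1
  simp only [map_add, h3, PowerSeries.coeff_X_pow_mul',
    PowerSeries.coeff_C_mul, h2, map_zero, PowerSeries.coeff_rescale] at h
  norm_num [h4, J1, mc_two_two, mc_two_one, zb_two_one, zb_two_zero] at h
  have h5 : ((mc 2 0 : ℤ) : ℂ) = (-162000 : ℤ) := by
    push_cast
    linear_combination h
  exact_mod_cast h5

/-- **`j(2τ) + j(τ/2) + j((τ+1)/2) = j(τ)² - 1488 j(τ) + 162000`** -/
theorem hecke_two (τ : ℍ) : jinv (up 2 τ) + jinv (dn 2 0 τ) + jinv (dn 2 1 τ) =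
    jinv τ ^ 2 - 1488 * jinv τ + 162000 := by
  have h := coeff_Psi_two 2 τ
  rw [psi_coeff_two, mc_three, if_neg (by norm_num), Int.cast_zero, zero_mul, add_zero,
    mc_two_two, mc_two_one, mc_two_zero] at h
  push_cast at h
  linear_combination -h

/-- `j(2i) = 66³` -/
theorem jinv_two_I : jinv (up 2 UpperHalfPlane.I) = 287496 ∧
    jinv (dn 2 0 UpperHalfPlane.I) = 287496 ∧ jinv (dn 2 1 UpperHalfPlane.I) = 1728 := by
  have hI2 : Complex.I ^ 2 = -1 := Complex.I_sq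
  have h1 : jinv (dn 2 0 UpperHalfPlane.I) = jinv (up 2 UpperHalfPlane.I) := by
    refine jinv_S _ ?_
    rw [coe_dn, coe_up, UpperHalfPlane.coe_I]
    push_cast
    linear_combination hI2
  have h2 : jinv (dn 2 1 UpperHalfPlane.I) = 1728 := by
    rw [← jinv_I]
    let z : ℍ := ModularGroup.S • dn 2 1 UpperHalfPlane.I
    have hz : jinv z = jinv (dn 2 1 UpperHalfPlane.I) := jinv_smul _ _
    have hz2 : (z : ℂ) * ((Complex.I + 1) / 2) = -1 := by
      have h0 : ((dn 2 1 UpperHalfPlane.I : ℍ) : ℂ) = (Complex.I + 1) / 2 := by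
        rw [coe_dn, UpperHalfPlane.coe_I]
        push_cast
        ring
      have h3 : (z : ℂ) = (-((dn 2 1 UpperHalfPlane.I : ℍ) : ℂ))⁻¹ := by
        show ((ModularGroup.S • dn 2 1 UpperHalfPlane.I : ℍ) : ℂ) = _
        rw [modular_S_smul]
      rw [h3, h0]
      have h4 : (Complex.I + 1) / 2 ≠ 0 := by
        rw [← h0]
        exact (dn 2 1 UpperHalfPlane.I).ne_zero
      rw [inv_neg, neg_mul, inv_mul_cancel₀ h4]
    rw [← hz]
    symm
    refine jinv_add_nat 1 z ?_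
    rw [UpperHalfPlane.coe_I]
    push_cast
    have h5 : (Complex.I - 1) * ((Complex.I + 1) / 2) = -1 := by linear_combination hI2 / 2
    have h4 : (Complex.I + 1) / 2 ≠ 0 := by
      intro h6
      rw [h6, mul_zero] at h5
      norm_num at h5
    have h6 : (z : ℂ) = Complex.I - 1 := mul_right_cancel₀ h4 (hz2.trans h5.symm)
    rw [h6]
    ring
  have h3 := hecke_two UpperHalfPlane.I
  rw [h1, h2, jinv_I] at h3
  have h4 : jinv (up 2 UpperHalfPlane.I) = 287496 := by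
    linear_combination h3 / 2
  exact ⟨h4, h1.trans h4, h2⟩

/-- `j(2ρ) = j(ρ/2) = j((ρ+1)/2) = 54000`, `ρ = exp(2πi/3)` -/
theorem jinv_two_rho {ρ : ℍ} (hρ : (ρ : ℂ) ^ 2 + ρ + 1 = 0) : jinv (up 2 ρ) = 54000 ∧
    jinv (dn 2 0 ρ) = 54000 ∧ jinv (dn 2 1 ρ) = 54000 := by
  have h1 : jinv (dn 2 1 ρ) = jinv (up 2 ρ) := by
    refine jinv_S _ ?_
    rw [coe_dn, coe_up]
    push_cast
    linear_combination hρ
  have h2 : jinv (dn 2 0 ρ) = jinv (up 2 ρ) := by
    let z : ℍ := ModularGroup.S • dn 2 0 ρ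
    have hz : jinv z = jinv (dn 2 0 ρ) := jinv_smul _ _
    have h0 : ((dn 2 0 ρ : ℍ) : ℂ) = ρ / 2 := by
      rw [coe_dn]
      push_cast
      ring
    have h4 : (ρ : ℂ) / 2 ≠ 0 := by
      rw [← h0]
      exact (dn 2 0 ρ).ne_zero
    have hz2 : (z : ℂ) * (ρ / 2) = -1 := by
      have h3 : (z : ℂ) = (-((dn 2 0 ρ : ℍ) : ℂ))⁻¹ := by
        show ((ModularGroup.S • dn 2 0 ρ : ℍ) : ℂ) = _
        rw [modular_S_smul]
      rw [h3, h0, inv_neg, neg_mul, inv_mul_cancel₀ h4]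
    rw [← hz]
    refine jinv_add_nat 2 _ ?_
    rw [coe_up]
    push_cast
    refine mul_right_cancel₀ h4 (hz2.trans ?_)
    linear_combination -hρ
  have h3 := hecke_two ρ
  rw [h1, h2, jinv_rho hρ] at h3
  have h4 : jinv (up 2 ρ) = 54000 := by linear_combination h3 / 3
  exact ⟨h4, h2.trans h4, h1.trans h4⟩

theorem exists_rho : ∃ ρ : ℍ, (ρ : ℂ) ^ 2 + ρ + 1 = 0 := by
  have h3 : (0 : ℝ) < Real.sqrt 3 := Real.sqrt_pos.mpr (by norm_num)
  refine ⟨⟨⟨-1 / 2, Real.sqrt 3 / 2⟩, by show 0 < Real.sqrt 3 / 2; positivity⟩, ?_⟩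
  show (⟨-1 / 2, Real.sqrt 3 / 2⟩ : ℂ) ^ 2 + ⟨-1 / 2, Real.sqrt 3 / 2⟩ + 1 = 0
  have hs : Real.sqrt 3 * Real.sqrt 3 = 3 := Real.mul_self_sqrt (by norm_num)
  apply Complex.ext
  · simp [sq]
    nlinarith
  · simp [sq]
    ring

theorem mc_one_zero : mc 1 0 = 8748000000 := by
  obtain ⟨ρ, hρ⟩ := exists_rho
  have h := coeff_Psi_two 1 ρ
  obtain ⟨h1, h2, h3⟩ := jinv_two_rho hρ
  rw [psi_coeff_one, h1, h2, h3, jinv_rho hρ] at h
  have h4 : ((mc 1 0 : ℤ) : ℂ) = (8748000000 : ℤ) := by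
    push_cast
    linear_combination -h
  exact_mod_cast h4

theorem mc_zero_zero : mc 0 0 = -157464000000000 := by
  obtain ⟨ρ, hρ⟩ := exists_rho
  have h := coeff_Psi_two 0 ρ
  obtain ⟨h1, h2, h3⟩ := jinv_two_rho hρ
  rw [psi_coeff_zero, h1, h2, h3, jinv_rho hρ] at h
  have h4 : ((mc 0 0 : ℤ) : ℂ) = (-157464000000000 : ℤ) := by
    push_cast
    linear_combination -h
  exact_mod_cast h4

theorem mc_one_one : mc 1 1 = 40773375 := by
  have h := coeff_Psi_two 1 UpperHalfPlane.I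
  obtain ⟨h1, h2, h3⟩ := jinv_two_I
  rw [psi_coeff_one, h1, h2, h3, jinv_I, mc_three, if_neg (by norm_num), mc_one_zero,
    mc_symm 1 2, mc_two_one] at h
  have h4 : ((mc 1 1 : ℤ) : ℂ) = (40773375 : ℤ) := by
    push_cast at h ⊢
    linear_combination -h / 1728
  exact_mod_cast h4

/-- **The modular equation of level 2** -/
theorem modPol_two : modPol 2 = Polynomial.X ^ 3 +
    Polynomial.C (-Polynomial.X ^ 2 + 1488 * Polynomial.X - 162000) * Polynomial.X ^ 2 +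
    Polynomial.C (1488 * Polynomial.X ^ 2 + 40773375 * Polynomial.X + 8748000000) *
      Polynomial.X +
    Polynomial.C (Polynomial.X ^ 3 - 162000 * Polynomial.X ^ 2 + 8748000000 * Polynomial.X -
      157464000000000) := by
  refine eq_of_ev fun τ => ?_
  rw [map_modPol, Psi_two, cubic]
  have h2 := coeff_Psi_two 2 τ
  have h1 := coeff_Psi_two 1 τ
  have h0 := coeff_Psi_two 0 τ
  rw [psi_coeff_two, mc_three, if_neg (by norm_num), mc_two_two, mc_two_one, mc_two_zero] at h2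
  rw [psi_coeff_one, mc_three, if_neg (by norm_num), mc_symm 1 2, mc_two_one, mc_one_one,
    mc_one_zero] at h1
  rw [psi_coeff_zero, mc_three, if_pos rfl, mc_symm 0 2, mc_two_zero, mc_symm 0 1, mc_one_zero,
    mc_zero_zero] at h0
  rw [h2, h1, h0]
  have h : ev τ Polynomial.X = jinv τ := Polynomial.aeval_X (jinv τ)
  simp only [Polynomial.map_add, Polynomial.map_mul, Polynomial.map_pow, Polynomial.map_C,
    Polynomial.map_sub, Polynomial.map_neg, Polynomial.map_ofNat,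
    Polynomial.map_X, map_add, map_sub, map_neg, map_mul, map_pow, h, map_ofNat]
  push_cast
  simp only [map_neg, map_ofNat, map_one, map_zero]
  ring

/-- `Φ₂(X, X) = -(X - 1728) (X + 3375)² (X - 8000)` -/
theorem diag_two : (modPol 2).eval Polynomial.X = -(Polynomial.X - 1728) *
    (Polynomial.X + 3375) ^ 2 * (Polynomial.X - 8000) := by
  rw [modPol_two]
  simp only [Polynomial.eval_add, Polynomial.eval_mul, Polynomial.eval_pow, Polynomial.eval_X,
    Polynomial.eval_C]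
  ring

end Fermat.Agent.Cor.Kro
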