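import Fermat.Agent.Corollaries.Kro.Defs

/-!
# Holomorphic invariant functions are polynomials in `j`

A holomorphic `SL₂(ℤ)`-invariant function `F` on the upper half plane such that `q^N F` is a power
series in `q` with coefficients in a subring `R` of `ℂ` is a polynomial in `j` with coefficients
in `R`.
-/

set_option autoImplicit false

noncomputable section

open UpperHalfPlane ModularForm ModularFormClass MatrixGroups EisensteinSeries Filter Asymptotics
open scoped Manifold Real Topology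

namespace Fermat.Agent.Cor.Kro

open Fermat.Agent.Cor.Tau (jinv HasExp jser hasExp_qj hasSum_mul map_jser coeff_zero_jser qj
  jinv_smul)

local notation "𝕢" => Function.Periodic.qParam

/-- a bounded holomorphic invariant function is constant -/
theorem const_of_inv {G : ℍ → ℂ} (hmd : MDiff G)
    (hinv : ∀ (γ : SL(2, ℤ)) (τ : ℍ), G (γ • τ) = G τ) (hbd : IsBoundedAtImInfty G) :
    ∃ x, ∀ τ, G τ = x := by
  have hslash : ∀ γ : SL(2, ℤ), G ∣[(0 : ℤ)] γ = G := by
    intro γ
    funext τ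
    rw [ModularForm.SL_slash_apply, hinv, neg_zero, zpow_zero, mul_one]
  let F : ModularForm 𝒮ℒ 0 :=
    { toFun := G
      slash_action_eq' := fun A hA => by
        obtain ⟨γ, rfl⟩ := hA
        exact hslash γ
      holo' := hmd
      bdd_at_cusps' := fun hc => by
        rw [Subgroup.IsArithmetic.isCusp_iff_isCusp_SL2Z] at hc
        rw [OnePoint.isBoundedAt_iff_forall_SL2Z hc]
        intro γ _
        rw [hslash γ]
        exact hbd }
  obtain ⟨x, hx⟩ := levelOne_weight_zero_const F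
  exact ⟨x, fun τ => congrFun hx τ⟩

theorem mdiff_jinv : MDiff jinv := by
  rw [UpperHalfPlane.mdifferentiable_iff]
  have h1 := UpperHalfPlane.mdifferentiable_iff.mp (holo E₄)
  have h2 := UpperHalfPlane.mdifferentiable_iff.mp (holo CuspForm.discriminant)
  exact (h1.pow 3).div h2 fun z _ => discriminant_ne_zero _

/-- a function with an expansion is bounded at `i∞` -/
theorem bounded_of_hasExp {F : ℍ → ℂ} {f : PowerSeries ℂ} (h : HasExp F f) :
    IsBoundedAtImInfty F := by
  rw [UpperHalfPlane.isBoundedAtImInfty_iff]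
  have hs := (h UpperHalfPlane.I).summable.norm
  refine ⟨∑' n : ℕ, ‖f.coeff n * 𝕢 1 (UpperHalfPlane.I : ℂ) ^ n‖, 1, fun τ hτ => ?_⟩
  have hq : ‖𝕢 1 (τ : ℂ)‖ ≤ ‖𝕢 1 ((UpperHalfPlane.I : ℍ) : ℂ)‖ := by
    rw [Function.Periodic.norm_qParam, Function.Periodic.norm_qParam]
    apply Real.exp_le_exp.mpr
    have h1 : ((UpperHalfPlane.I : ℍ) : ℂ).im = 1 := by simp
    have h2 : (1 : ℝ) ≤ (τ : ℂ).im := hτ
    rw [h1]
    have := Real.pi_pos
    nlinarith
  rw [← (h τ).tsum_eq]
  have hle : ∀ n : ℕ, ‖f.coeff n * 𝕢 1 (τ : ℂ) ^ n‖ ≤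
      ‖f.coeff n * 𝕢 1 ((UpperHalfPlane.I : ℍ) : ℂ) ^ n‖ := by
    intro n
    rw [norm_mul, norm_mul, norm_pow, norm_pow]
    gcongr
  exact tsum_of_norm_bounded hs.hasSum hle

theorem hasExp_pow {F : ℍ → ℂ} {f : PowerSeries ℂ} (h : HasExp F f) (k : ℕ) :
    HasExp (fun τ => F τ ^ k) (f ^ k) := by
  induction k with
  | zero =>
    intro τ
    have h1 : HasSum (fun n : ℕ => (1 : PowerSeries ℂ).coeff n * 𝕢 1 (τ : ℂ) ^ n)
        ((1 : PowerSeries ℂ).coeff 0 * 𝕢 1 (τ : ℂ) ^ 0) := hasSum_single 0 fun n hn => by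
      rw [PowerSeries.coeff_one, if_neg hn, zero_mul]
    rw [PowerSeries.coeff_one, if_pos rfl, pow_zero, mul_one] at h1
    simpa using h1
  | succ k ih =>
    intro τ
    rw [pow_succ]
    simp only [pow_succ (F τ)]
    exact hasSum_mul (ih τ) (h τ)

theorem coeff_jser_pow_mem (R : Subring ℂ) (k n : ℕ) : (jser ℂ ^ k).coeff n ∈ R := by
  rw [← map_jser (Int.castRingHom ℂ), ← map_pow, PowerSeries.coeff_map]
  exact intCast_mem R _

/-- (C) -/
theorem polyStmt : PolyStmt := by
  intro R N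
  induction N with
  | zero =>
    intro F f hmd hinv hexp hR
    have hF : HasExp F f := fun τ => by simpa using hexp τ
    obtain ⟨x, hx⟩ := const_of_inv hmd hinv (bounded_of_hasExp hF)
    have hC : HasExp F (PowerSeries.C x) := fun τ => by
      rw [hx τ]
      have h : HasSum (fun n : ℕ => (PowerSeries.C x : PowerSeries ℂ).coeff n * 𝕢 1 (τ : ℂ) ^ n)
          ((PowerSeries.C x : PowerSeries ℂ).coeff 0 * 𝕢 1 (τ : ℂ) ^ 0) :=
        hasSum_single 0 fun n hn => by rw [PowerSeries.coeff_C, if_neg hn, zero_mul]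
      rwa [PowerSeries.coeff_C, if_pos rfl, pow_zero, mul_one] at h
    have hf := hF.unique hC
    have hfx : f.coeff 0 = x := by rw [hf, PowerSeries.coeff_C, if_pos rfl]
    refine ⟨Polynomial.C x, fun n => ?_, by simp, by simp [hfx], fun τ => by simp [hx τ]⟩
    rw [Polynomial.coeff_C]
    split_ifs
    · exact hfx ▸ hR 0
    · exact R.zero_mem
  | succ N ih =>
    intro F f hmd hinv hexp hR
    set c : ℂ := f.coeff 0 with hc
    set h : PowerSeries ℂ := f - PowerSeries.C c * jser ℂ ^ (N + 1) with hh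
    have hcoef : ∀ n, h.coeff n ∈ R := by
      intro n
      rw [hh, map_sub, PowerSeries.coeff_C_mul]
      exact R.sub_mem (hR n) (R.mul_mem (hR 0) (coeff_jser_pow_mem R _ n))
    have hJ0 : (jser ℂ ^ (N + 1)).coeff 0 = 1 := by
      rw [PowerSeries.coeff_zero_eq_constantCoeff_apply, map_pow,
        ← PowerSeries.coeff_zero_eq_constantCoeff_apply, ← map_jser (Int.castRingHom ℂ),
        PowerSeries.coeff_map, coeff_zero_jser, map_one, one_pow]
    have h0 : h.coeff 0 = 0 := by
      rw [hh, map_sub, PowerSeries.coeff_C_mul, hJ0, mul_one, ← hc, sub_self]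
    have hq : ∀ τ : ℍ, 𝕢 1 (τ : ℂ) ≠ 0 := fun τ => Function.Periodic.qParam_ne_zero _
    have hexp' : HasExp (fun τ => 𝕢 1 (τ : ℂ) ^ N * (F τ - c * jinv τ ^ (N + 1)))
        (PowerSeries.mk fun n => h.coeff (n + 1)) := by
      intro τ
      have h1 := hexp τ
      have h2 := (hasExp_pow hasExp_qj (N + 1) τ).mul_left c
      have h3 : HasSum (fun n : ℕ => h.coeff n * 𝕢 1 (τ : ℂ) ^ n)
          (𝕢 1 (τ : ℂ) ^ (N + 1) * F τ - c * qj τ ^ (N + 1)) := by
        refine (h1.sub h2).congr_fun fun n => ?_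
        rw [hh, map_sub, PowerSeries.coeff_C_mul]
        ring
      have h4 := (hasSum_nat_add_iff' (f := fun n : ℕ => h.coeff n * 𝕢 1 (τ : ℂ) ^ n) 1).mpr h3
      rw [Finset.sum_range_one, h0, zero_mul, sub_zero] at h4
      have h5 := h4.mul_left (𝕢 1 (τ : ℂ))⁻¹
      have e1 : (𝕢 1 (τ : ℂ))⁻¹ * (𝕢 1 (τ : ℂ) ^ (N + 1) * F τ - c * qj τ ^ (N + 1)) =
          𝕢 1 (τ : ℂ) ^ N * (F τ - c * jinv τ ^ (N + 1)) := by
        have := hq τ
        rw [qj, mul_pow, pow_succ (𝕢 1 (τ : ℂ))]
        field_simp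
      beta_reduce
      rw [← e1]
      refine h5.congr_fun fun n => ?_
      have := hq τ
      rw [PowerSeries.coeff_mk, pow_succ]
      field_simp
    have hmd' : MDiff fun τ => F τ - c * jinv τ ^ (N + 1) := by
      rw [UpperHalfPlane.mdifferentiable_iff]
      have h1 := UpperHalfPlane.mdifferentiable_iff.mp hmd
      have h2 := UpperHalfPlane.mdifferentiable_iff.mp mdiff_jinv
      exact h1.sub ((h2.pow (N + 1)).const_mul c)
    obtain ⟨P, hP1, hP2, hP3, hP4⟩ := ih (fun τ => F τ - c * jinv τ ^ (N + 1)) _ hmd'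
      (fun γ τ => by
        show F (γ • τ) - c * jinv (γ • τ) ^ (N + 1) = F τ - c * jinv τ ^ (N + 1)
        rw [hinv, jinv_smul]) hexp' (fun n => by
        rw [PowerSeries.coeff_mk]
        exact hcoef _)
    refine ⟨P + Polynomial.C c * Polynomial.X ^ (N + 1), fun n => ?_, ?_, ?_, fun τ => ?_⟩
    · rw [Polynomial.coeff_add, Polynomial.coeff_C_mul, Polynomial.coeff_X_pow]
      refine R.add_mem (hP1 n) (R.mul_mem (hR 0) ?_)
      split_ifs
      · exact R.one_mem
      · exact R.zero_mem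
    · refine (Polynomial.natDegree_add_le _ _).trans (max_le (hP2.trans (Nat.le_succ N)) ?_)
      exact Polynomial.natDegree_C_mul_X_pow_le _ _
    · rw [Polynomial.coeff_add, Polynomial.coeff_C_mul, Polynomial.coeff_X_pow, if_pos rfl,
        Polynomial.coeff_eq_zero_of_natDegree_lt (hP2.trans_lt (Nat.lt_succ_self N)), zero_add,
        mul_one]
    · rw [Polynomial.eval_add, Polynomial.eval_mul, Polynomial.eval_C, Polynomial.eval_pow,
        Polynomial.eval_X, ← hP4 τ]
      ring

end Fermat.Agent.Cor.Kro
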