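import Fermat.Agent.Corollaries.Kro.Inv
import Fermat.Agent.Corollaries.Kro.Exp
import Fermat.Agent.Corollaries.Kro.Poly

/-!
# Singular moduli are algebraic integers

`singStmt_of`: `j(τ)` is an algebraic integer if `Φ(τ) = 0`, in particular for every imaginary
quadratic `τ`.
-/

set_option autoImplicit false

noncomputable section

open UpperHalfPlane MatrixGroups
open scoped Manifold Real

namespace Fermat.Agent.Cor.Kro

open Fermat.Agent.Cor.Tau (jinv HasExp jinv_smul)

local notation "𝕢" => Function.Periodic.qParam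

theorem diffOn_jinv : DifferentiableOn ℂ (jinv ∘ ofComplex) {z : ℂ | 0 < z.im} :=
  UpperHalfPlane.mdifferentiable_iff.mp mdiff_jinv

theorem diffOn_up (p : ℕ) [hpf : Fact p.Prime] :
    DifferentiableOn ℂ (fun w : ℂ => jinv (up p (ofComplex w))) {z : ℂ | 0 < z.im} := by
  have hp0 : (0 : ℝ) < p := by exact_mod_cast hpf.out.pos
  have hmap : Set.MapsTo (fun w : ℂ => (p : ℂ) * w) {z : ℂ | 0 < z.im} {z : ℂ | 0 < z.im} := by
    intro w hw
    have hw' : 0 < w.im := hw
    show 0 < ((p : ℂ) * w).im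
    simpa using mul_pos hp0 hw'
  have h1 := diffOn_jinv.comp (differentiableOn_id.const_mul (p : ℂ)) hmap
  refine h1.congr fun w hw => ?_
  have hw' : 0 < w.im := hw
  have hw2 : 0 < ((p : ℂ) * w).im := hmap hw
  show jinv (up p (ofComplex w)) = jinv (ofComplex ((p : ℂ) * w))
  congr 1
  ext
  rw [coe_up, ofComplex_apply_of_im_pos hw', ofComplex_apply_of_im_pos hw2]

theorem diffOn_dn (p : ℕ) [hpf : Fact p.Prime] (b : ℤ) :
    DifferentiableOn ℂ (fun w : ℂ => jinv (dn p b (ofComplex w))) {z : ℂ | 0 < z.im} := by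
  have hp0 : (0 : ℝ) < p := by exact_mod_cast hpf.out.pos
  have hmap : Set.MapsTo (fun w : ℂ => (w + b) / (p : ℂ)) {z : ℂ | 0 < z.im}
      {z : ℂ | 0 < z.im} := by
    intro w hw
    have hw' : 0 < w.im := hw
    show 0 < ((w + b) / (p : ℂ)).im
    have h1 : ((w + b) / (p : ℂ)).im = w.im / p := by
      rw [Complex.div_natCast_im]
      simp
    rw [h1]
    exact div_pos hw' hp0
  have h1 := diffOn_jinv.comp
    ((differentiableOn_id.add_const (b : ℂ)).div_const (p : ℂ)) hmap
  refine h1.congr fun w hw => ?_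
  have hw' : 0 < w.im := hw
  have hw2 : 0 < ((w + b) / (p : ℂ)).im := hmap hw
  show jinv (dn p b (ofComplex w)) = jinv (ofComplex ((w + b) / (p : ℂ)))
  congr 1
  ext
  rw [coe_dn, ofComplex_apply_of_im_pos hw', ofComplex_apply_of_im_pos hw2]

theorem mdiff_Phi (p : ℕ) [Fact p.Prime] : MDiff (Phi p) := by
  rw [UpperHalfPlane.mdifferentiable_iff]
  refine (diffOn_jinv.sub (diffOn_up p)).mul ?_
  exact DifferentiableOn.fun_finset_prod fun b _ => diffOn_jinv.sub (diffOn_dn p b)

/-- an element with `P(x) = 0`, `P` with coefficients in the algebraic integers, of degree `≤ N`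
with `N`-th coefficient `-1`, is an algebraic integer -/
theorem isIntegral_of_poly {P : Polynomial ℂ} {N : ℕ} (h1 : ∀ n, IsIntegral ℤ (P.coeff n))
    (h2 : P.natDegree ≤ N) (h3 : P.coeff N = -1) {x : ℂ} (h4 : P.eval x = 0) :
    IsIntegral ℤ x := by
  let R := integralClosure ℤ ℂ
  have hlift : -P ∈ Polynomial.lifts (algebraMap R ℂ) := by
    rw [Polynomial.lifts_iff_coeff_lifts]
    intro n
    refine ⟨⟨(-P).coeff n, ?_⟩, rfl⟩
    rw [Polynomial.coeff_neg]
    exact (h1 n).neg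
  have hmonic : (-P).Monic := by
    refine Polynomial.monic_of_natDegree_le_of_coeff_eq_one N ?_ ?_
    · rwa [Polynomial.natDegree_neg]
    · rw [Polynomial.coeff_neg, h3, neg_neg]
  obtain ⟨Q, hQ1, -, hQ2⟩ := Polynomial.lifts_and_natDegree_eq_and_monic hlift hmonic
  have hx : IsIntegral R x := by
    refine ⟨Q, hQ2, ?_⟩
    rw [← Polynomial.eval_map, hQ1, Polynomial.eval_neg, h4, neg_zero]
  exact isIntegral_trans (R := ℤ) (A := R) x hx

/-- the zeros of `Φ` -/
theorem isIntegral_of_Phi_eq_zero (p : ℕ) [Fact p.Prime] {τ : ℍ} (h : Phi p τ = 0) :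
    IsIntegral ℤ (jinv τ) := by
  obtain ⟨f, hf1, hf2, hf3⟩ := expStmt_of invStmt p
  obtain ⟨P, hP1, hP2, hP3, hP4⟩ := polyStmt (integralClosure ℤ ℂ).toSubring (2 * p) (Phi p) f
    (mdiff_Phi p) (fun γ τ => invStmt p γ τ) hf1 (fun n => hf2 n)
  exact isIntegral_of_poly (fun n => hP1 n) hP2 (hP3.trans hf3) ((hP4 τ).symm.trans h)

/-- (E) from (D) -/
theorem singStmt_of (hZ : ZeroStmt) : SingStmt := by
  intro τ a b c ha h
  obtain ⟨p, hp, h0⟩ := hZ τ a b c ha h
  exact isIntegral_of_Phi_eq_zero p h0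

end Fermat.Agent.Cor.Kro
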