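import Fermat.Agent.Corollaries.Kro.Galois
import Fermat.Agent.IntStruct.AutC

/-!
# The modular equation of prime level

`exists_modPol`: for every prime number `p` there is a monic polynomial `Φ ∈ ℤ[Y][X]` of degree
`p + 1` with `Φ(X, j(τ)) = (X - j(pτ)) ∏_{b mod p} (X - j((τ + b)/p))` for every `τ` in the upper
half plane.
-/

set_option autoImplicit false

noncomputable section

open UpperHalfPlane MatrixGroups
open scoped Manifold Real Polynomial

namespace Fermat.Agent.Cor.Kro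

open Fermat.Agent.Cor.Tau (jinv HasExp jser map_jser hasSum_mul jinv_smul hasExp_qj jinv_surjective)

local notation "𝕢" => Function.Periodic.qParam

/-- an algebraic integer fixed by all automorphisms of `ℂ` is an integer -/
theorem exists_int_of_fixed {x : ℂ} (hx : IsIntegral ℤ x) (h : ∀ σ : ℂ ≃+* ℂ, σ x = x) :
    ∃ n : ℤ, (n : ℂ) = x := by
  obtain ⟨r, rfl⟩ := IntStruct.exists_rat_of_forall_ringEquiv_fixed x h
  have h1 : IsIntegral ℤ r := by
    have h2 : (r : ℂ) = algebraMap ℚ ℂ r := (eq_ratCast _ r).symm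
    rw [h2] at hx
    exact (isIntegral_algebraMap_iff (algebraMap ℚ ℂ).injective).mp hx
  obtain ⟨m, hm⟩ := IsIntegrallyClosed.isIntegral_iff.mp h1
  refine ⟨m, ?_⟩
  rw [← hm]
  simp

/-- `Ψ(τ) = (X - j(pτ)) ∏_{b mod p} (X - j((τ + b)/p))` -/
def Psi (p : ℕ) [Fact p.Prime] (τ : ℍ) : ℂ[X] :=
  (Polynomial.X - Polynomial.C (jinv (up p τ))) *
    ∏ b ∈ Finset.range p, (Polynomial.X - Polynomial.C (jinv (dn p b τ)))

section P

variable (p : ℕ) [hpf : Fact p.Prime]

theorem monic_Psi (τ : ℍ) : (Psi p τ).Monic :=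
  (Polynomial.monic_X_sub_C _).mul (Polynomial.monic_prod_of_monic _ _ fun _ _ =>
    Polynomial.monic_X_sub_C _)

theorem natDegree_Psi (τ : ℍ) : (Psi p τ).natDegree = p + 1 := by
  rw [Psi, (Polynomial.monic_X_sub_C _).natDegree_mul
    (Polynomial.monic_prod_of_monic _ _ fun _ _ => Polynomial.monic_X_sub_C _),
    Polynomial.natDegree_X_sub_C, Polynomial.natDegree_prod_of_monic _ _
      fun _ _ => Polynomial.monic_X_sub_C _]
  simp [add_comm]

theorem Psi_eq (τ : ℍ) : Psi p τ = (Polynomial.X - Polynomial.C (jinv (up p τ))) *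
    ∏ b : ZMod p, (Polynomial.X - Polynomial.C (jd p b τ)) := by
  rw [Psi]
  congr 1
  have : NeZero p := ⟨hpf.out.ne_zero⟩
  refine Finset.prod_bij (fun b _ => (b : ZMod p)) (fun _ _ => Finset.mem_univ _) ?_ ?_ ?_
  · intro a ha b hb hab
    rw [Finset.mem_range] at ha hb
    have h := congrArg ZMod.val hab
    rwa [ZMod.val_natCast_of_lt ha, ZMod.val_natCast_of_lt hb] at h
  · intro b _
    exact ⟨b.val, Finset.mem_range.mpr b.val_lt, ZMod.natCast_zmod_val b⟩
  · intro b _
    rw [jd_eq p (b : ℕ) τ]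
    simp

theorem Psi_T (τ : ℍ) : Psi p (ModularGroup.T • τ) = Psi p τ := by
  rw [Psi_eq, Psi_eq, jup_T]
  have hb : Function.Bijective fun b : ZMod p => b + 1 :=
    ⟨fun a b h => add_right_cancel h, fun b => ⟨b - 1, sub_add_cancel b 1⟩⟩
  have key := Fintype.prod_bijective (fun b : ZMod p => b + 1) hb
    (fun b => (Polynomial.X - Polynomial.C (jd p b (ModularGroup.T • τ)) : ℂ[X]))
    (fun b => (Polynomial.X - Polynomial.C (jd p b τ) : ℂ[X]))
    (fun b => congrArg (fun x => (Polynomial.X - Polynomial.C x : ℂ[X])) (jd_T p b τ))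
  exact congrArg (fun x => (Polynomial.X - Polynomial.C (jinv (up p τ)) : ℂ[X]) * x) key

theorem Psi_S (τ : ℍ) : Psi p (ModularGroup.S • τ) = Psi p τ := by
  classical
  rw [Psi_eq, Psi_eq, jup_S,
    ← Finset.mul_prod_erase Finset.univ
      (fun b => (Polynomial.X - Polynomial.C (jd p b (ModularGroup.S • τ)) : ℂ[X]))
      (Finset.mem_univ (0 : ZMod p)),
    ← Finset.mul_prod_erase Finset.univ (fun b => (Polynomial.X - Polynomial.C (jd p b τ) : ℂ[X]))
      (Finset.mem_univ (0 : ZMod p)), jd_zero_S]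
  have key : ∏ b ∈ Finset.univ.erase (0 : ZMod p),
        (Polynomial.X - Polynomial.C (jd p b (ModularGroup.S • τ)) : ℂ[X]) =
      ∏ b ∈ Finset.univ.erase (0 : ZMod p), (Polynomial.X - Polynomial.C (jd p b τ) : ℂ[X]) := by
    refine Finset.prod_bij (fun b _ => -b⁻¹) ?_ ?_ ?_ ?_
    · intro b hb
      rw [Finset.mem_erase] at hb ⊢
      exact ⟨neg_ne_zero.mpr (inv_ne_zero hb.1), Finset.mem_univ _⟩
    · intro a _ b _ h
      exact inv_injective (neg_injective h)
    · intro b hb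
      rw [Finset.mem_erase] at hb
      refine ⟨-b⁻¹, Finset.mem_erase.mpr ⟨neg_ne_zero.mpr (inv_ne_zero hb.1),
        Finset.mem_univ _⟩, ?_⟩
      rw [inv_neg, inv_inv, neg_neg]
    · intro b hb
      rw [Finset.mem_erase] at hb
      rw [jd_S p hb.1]
  rw [key]
  ring

theorem Psi_smul (γ : SL(2, ℤ)) (τ : ℍ) : Psi p (γ • τ) = Psi p τ := by
  have hmem : γ ∈ Subgroup.closure {ModularGroup.S, ModularGroup.T} := by
    rw [SpecialLinearGroup.SL2Z_generators]
    exact Subgroup.mem_top γ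
  induction hmem using Subgroup.closure_induction generalizing τ with
  | mem x hx =>
    rcases hx with rfl | hx
    · exact Psi_S p τ
    · rw [Set.mem_singleton_iff] at hx
      rw [hx]
      exact Psi_T p τ
  | one => rw [one_smul]
  | mul x y _ _ hx hy => rw [mul_smul, hx, hy]
  | inv x _ hx =>
    have h := hx (x⁻¹ • τ)
    rw [smul_inv_smul] at h
    exact h.symm

/-! ### Holomorphy -/

/-- the coefficients are holomorphic on the upper half plane -/
def Hol (P : ℂ → ℂ[X]) : Prop :=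
  ∀ k, DifferentiableOn ℂ (fun w => (P w).coeff k) {z : ℂ | 0 < z.im}

omit hpf in
theorem Hol.mul {P Q : ℂ → ℂ[X]} (hP : Hol P) (hQ : Hol Q) : Hol fun w => P w * Q w := by
  intro k
  simp only [Polynomial.coeff_mul]
  exact DifferentiableOn.fun_sum fun ij _ => (hP ij.1).mul (hQ ij.2)

omit hpf in
theorem Hol.prod {ι : Type*} (s : Finset ι) {P : ι → ℂ → ℂ[X]} (h : ∀ i ∈ s, Hol (P i)) :
    Hol fun w => ∏ i ∈ s, P i w := by
  classical
  induction s using Finset.induction_on with
  | empty =>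
    intro k
    simp only [Finset.prod_empty]
    exact differentiableOn_const _
  | insert a s ha ih =>
    simp only [Finset.prod_insert ha]
    exact (h a (Finset.mem_insert_self a s)).mul (ih fun i hi => h i (Finset.mem_insert_of_mem hi))

omit hpf in
theorem Hol.X_sub_C {f : ℂ → ℂ} (hf : DifferentiableOn ℂ f {z : ℂ | 0 < z.im}) :
    Hol fun w => Polynomial.X - Polynomial.C (f w) := by
  intro k
  simp only [Polynomial.coeff_sub, Polynomial.coeff_C]
  refine (differentiableOn_const _).sub ?_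
  split_ifs
  · exact hf
  · exact differentiableOn_const _

theorem mdiff_coeff (k : ℕ) : MDiff fun τ => (Psi p τ).coeff k := by
  rw [UpperHalfPlane.mdifferentiable_iff]
  have h : Hol fun w => Psi p (ofComplex w) :=
    (Hol.X_sub_C (diffOn_up p)).mul (Hol.prod _ fun b _ => Hol.X_sub_C (diffOn_dn p b))
  exact h k

/-! ### Expansions -/

/-- `G ∈ ℂ[[t]][X]` is the expansion of `F` -/
def PX (t : ℍ → ℂ) (F : ℍ → ℂ[X]) (G : Polynomial (PowerSeries ℂ)) : Prop :=
  ∀ τ k, HasSum (fun n : ℕ => (G.coeff k).coeff n * t τ ^ n) ((F τ).coeff k)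

variable {t : ℍ → ℂ}

omit hpf in
theorem PX.mul {F F' : ℍ → ℂ[X]} {G G' : Polynomial (PowerSeries ℂ)} (h : PX t F G)
    (h' : PX t F' G') : PX t (fun τ => F τ * F' τ) (G * G') := by
  intro τ k
  rw [Polynomial.coeff_mul]
  simp only [Polynomial.coeff_mul]
  have h1 := hasSum_sum (f := fun (ij : ℕ × ℕ) (n : ℕ) =>
    ((G.coeff ij.1 * G'.coeff ij.2).coeff n * t τ ^ n))
    (s := Finset.HasAntidiagonal.antidiagonal k)
    fun ij _ => hasSum_mul (h τ ij.1) (h' τ ij.2)
  refine h1.congr_fun fun n => ?_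
  rw [map_sum, Finset.sum_mul]

omit hpf in
theorem PX.prod {ι : Type*} (s : Finset ι) {F : ι → ℍ → ℂ[X]}
    {G : ι → Polynomial (PowerSeries ℂ)} (h : ∀ i ∈ s, PX t (F i) (G i)) :
    PX t (fun τ => ∏ i ∈ s, F i τ) (∏ i ∈ s, G i) := by
  classical
  induction s using Finset.induction_on with
  | empty =>
    intro τ k
    simp only [Finset.prod_empty, Polynomial.coeff_one]
    split_ifs
    · have := hasSum_C 1 (t τ)
      rwa [map_one] at this
    · simp
  | insert a s ha ih =>
    simp only [Finset.prod_insert ha]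
    exact (h a (Finset.mem_insert_self a s)).mul (ih fun i hi => h i (Finset.mem_insert_of_mem hi))

omit hpf in
theorem PX.lin {c d : ℍ → ℂ} {g h : PowerSeries ℂ}
    (hc : ∀ τ, HasSum (fun n : ℕ => g.coeff n * t τ ^ n) (c τ))
    (hd : ∀ τ, HasSum (fun n : ℕ => h.coeff n * t τ ^ n) (d τ)) :
    PX t (fun τ => Polynomial.C (c τ) * Polynomial.X - Polynomial.C (d τ))
      (Polynomial.C g * Polynomial.X - Polynomial.C h) := by
  intro τ k
  rcases k with _ | _ | k
  · have e1 : (Polynomial.C g * Polynomial.X - Polynomial.C h).coeff 0 = -h := by simp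
    have e2 : (Polynomial.C (c τ) * Polynomial.X - Polynomial.C (d τ)).coeff 0 = -d τ := by simp
    rw [e1, e2]
    refine (hd τ).neg.congr_fun fun n => ?_
    rw [map_neg, neg_mul]
  · have e1 : (Polynomial.C g * Polynomial.X - Polynomial.C h).coeff (0 + 1) = g := by
      simp [Polynomial.coeff_C]
    have e2 : (Polynomial.C (c τ) * Polynomial.X - Polynomial.C (d τ)).coeff (0 + 1) = c τ := by
      simp [Polynomial.coeff_C]
    rw [e1, e2]
    exact hc τ
  · have e1 : (Polynomial.C g * Polynomial.X - Polynomial.C h).coeff (k + 1 + 1) = 0 := by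
      simp [Polynomial.coeff_C, Polynomial.coeff_X]
    have e2 : (Polynomial.C (c τ) * Polynomial.X - Polynomial.C (d τ)).coeff (k + 1 + 1) = 0 := by
      simp [Polynomial.coeff_C, Polynomial.coeff_X]
    rw [e1, e2]
    simp

/-- the factor at the root of unity `z` -/
def Gz (z : ℂ) : Polynomial (PowerSeries ℂ) :=
  Polynomial.C PowerSeries.X * Polynomial.X -
    Polynomial.C (PowerSeries.C z⁻¹ * PowerSeries.rescale z (jser ℂ))

/-- the factor at `∞` -/
def Gi : Polynomial (PowerSeries ℂ) :=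
  Polynomial.C (PowerSeries.X ^ (p ^ 2)) * Polynomial.X - Polynomial.C (xp (p ^ 2) (jser ℂ))

/-- the expansion of `q^{p+1} Ψ` -/
def GP : Polynomial (PowerSeries ℂ) := Gi p * ∏ b ∈ Finset.range p, Gz (zb p (b : ℕ))

theorem PX_Gz (b : ℤ) : PX (tp p) (fun τ => Polynomial.C (tp p τ) * Polynomial.X -
    Polynomial.C (tp p τ * jinv (dn p b τ))) (Gz (zb p b)) := by
  refine PX.lin (fun τ => ?_) (fun τ => ?_)
  · have := hasSum_X_pow 1 (tp p τ)
    rwa [pow_one, pow_one] at this
  · have h2 : HasSum (fun n : ℕ => (PowerSeries.rescale (zb p b) (jser ℂ)).coeff n * tp p τ ^ n)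
        (zb p b * tp p τ * jinv (dn p b τ)) := by
      have h := hasExp_qj (dn p b τ)
      rw [q_dn, Tau.qj, q_dn] at h
      refine h.congr_fun fun n => ?_
      rw [PowerSeries.coeff_rescale, mul_pow]
      ring
    have h3 := hasSum_mul (hasSum_C (zb p b)⁻¹ (tp p τ)) h2
    have e1 : tp p τ * jinv (dn p b τ) = (zb p b)⁻¹ * (zb p b * tp p τ * jinv (dn p b τ)) := by
      have e3 := zb_ne_zero p b
      field_simp
    rw [e1]
    exact h3

theorem PX_Gi : PX (tp p) (fun τ => Polynomial.C (tp p τ ^ (p ^ 2)) * Polynomial.X -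
    Polynomial.C (tp p τ ^ (p ^ 2) * jinv (up p τ))) (Gi p) := by
  refine PX.lin (fun τ => hasSum_X_pow (p ^ 2) (tp p τ)) (fun τ => ?_)
  refine hasSum_xp (pow_pos (p_pos p) 2) ?_
  have h := hasExp_qj (up p τ)
  rw [q_up p τ, Tau.qj, q_up p τ] at h
  exact h

theorem PX_GP : PX (tp p) (fun τ => Polynomial.C (𝕢 1 (τ : ℂ) ^ (p + 1)) * Psi p τ) (GP p) := by
  have h := (PX_Gi p).mul (PX.prod (Finset.range p) fun b _ => PX_Gz p (b : ℕ))
  have e : (fun τ : ℍ => Polynomial.C (𝕢 1 (τ : ℂ) ^ (p + 1)) * Psi p τ) = fun τ =>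
      (Polynomial.C (tp p τ ^ (p ^ 2)) * Polynomial.X -
        Polynomial.C (tp p τ ^ (p ^ 2) * jinv (up p τ))) *
      ∏ b ∈ Finset.range p, (Polynomial.C (tp p τ) * Polynomial.X -
        Polynomial.C (tp p τ * jinv (dn p (b : ℕ) τ))) := by
    funext τ
    have e1 : ∀ b ∈ Finset.range p, (Polynomial.C (tp p τ) * Polynomial.X -
        Polynomial.C (tp p τ * jinv (dn p (b : ℕ) τ)) : ℂ[X]) =
        Polynomial.C (tp p τ) * (Polynomial.X - Polynomial.C (jinv (dn p (b : ℕ) τ))) := by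
      intro b _
      rw [Polynomial.C_mul]
      ring
    rw [Finset.prod_congr rfl e1, Finset.prod_mul_distrib, Finset.prod_const, Finset.card_range,
      q_eq p τ, Psi, Polynomial.C_mul]
    have e2 : (Polynomial.C ((tp p τ ^ p) ^ (p + 1)) : ℂ[X]) =
        Polynomial.C (tp p τ ^ (p ^ 2)) * Polynomial.C (tp p τ) ^ p := by
      rw [← Polynomial.C_pow, ← Polynomial.C_mul]
      congr 1
      rw [← pow_mul, ← pow_add]
      congr 1
      ring
    rw [e2]
    ring
  rw [e]
  exact h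

/-- the coefficients at the `n` prime to `p` are `0` -/
theorem coeff_GP_eq_zero (k : ℕ) {n : ℕ} (hn : ¬ p ∣ n) : ((GP p).coeff k).coeff n = 0 := by
  have h0 : (fun n => ((GP p).coeff k).coeff n * (zb p 1 ^ n - 1)) n = 0 := by
    refine coeff_eq_zero (b := fun n => ((GP p).coeff k).coeff n * (zb p 1 ^ n - 1))
      (fun t ht0 ht1 => ?_) n
    have hp0 : (0 : ℝ) < p := by exact_mod_cast hpf.out.pos
    let τ : ℍ := ⟨Function.Periodic.invQParam p t,
      Function.Periodic.im_invQParam_pos_of_norm_lt_one hp0 ht1 ht0⟩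
    have hτ : tp p τ = t := Function.Periodic.qParam_right_inv hp0.ne' ht0
    have h1 := PX_GP p τ k
    have h2 := PX_GP p (ModularGroup.T • τ) k
    beta_reduce at h1 h2
    rw [Psi_T, tp_T, q_eq p (ModularGroup.T • τ), tp_T, mul_pow (zb p 1) _ p, zb_pow, one_mul,
      ← q_eq p τ] at h2
    rw [hτ] at h1 h2
    have h3 := h2.sub h1
    rw [sub_self] at h3
    refine h3.congr_fun fun m => ?_
    rw [mul_pow]
    ring
  exact (mul_eq_zero.mp h0).resolve_right (sub_ne_zero.mpr (zb_pow_ne_one p hn))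

/-! ### The coefficients are integers -/

omit hpf in
theorem mul_mem_IS {G G' : Polynomial (PowerSeries ℂ)} (h : ∀ k, G.coeff k ∈ IS)
    (h' : ∀ k, G'.coeff k ∈ IS) (k : ℕ) : (G * G').coeff k ∈ IS := by
  rw [Polynomial.coeff_mul]
  exact IS.sum_mem fun ij _ => IS.mul_mem (h _) (h' _)

omit hpf in
theorem prod_mem_IS {ι : Type*} (s : Finset ι) {G : ι → Polynomial (PowerSeries ℂ)}
    (h : ∀ i ∈ s, ∀ k, (G i).coeff k ∈ IS) (k : ℕ) : (∏ i ∈ s, G i).coeff k ∈ IS := by
  classical
  induction s using Finset.induction_on generalizing k with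
  | empty =>
    rw [Finset.prod_empty, Polynomial.coeff_one]
    split_ifs
    · exact IS.one_mem
    · exact IS.zero_mem
  | insert a s ha ih =>
    rw [Finset.prod_insert ha]
    exact mul_mem_IS (h a (Finset.mem_insert_self a s))
      (fun k => ih (fun i hi => h i (Finset.mem_insert_of_mem hi)) k) k

omit hpf in
theorem lin_mem_IS {g h : PowerSeries ℂ} (hg : g ∈ IS) (hh : h ∈ IS) (k : ℕ) :
    (Polynomial.C g * Polynomial.X - Polynomial.C h).coeff k ∈ IS := by
  rw [Polynomial.coeff_sub, Polynomial.coeff_C_mul, Polynomial.coeff_X, Polynomial.coeff_C]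
  refine IS.sub_mem (IS.mul_mem hg ?_) ?_
  · split_ifs
    · exact IS.one_mem
    · exact IS.zero_mem
  · split_ifs
    · exact hh
    · exact IS.zero_mem

theorem Gz_mem (b : ℤ) (k : ℕ) : (Gz (zb p b)).coeff k ∈ IS :=
  lin_mem_IS X_mem (IS.mul_mem (C_mem (zb_inv_integral p b))
    (rescale_mem (zb_integral p b) jser_mem)) k

theorem GP_mem (k : ℕ) : (GP p).coeff k ∈ IS := by
  refine mul_mem_IS (lin_mem_IS (IS.pow_mem X_mem _) (xp_mem jser_mem)) (fun k => ?_) k
  exact prod_mem_IS (Finset.range p) (fun b _ => Gz_mem p (b : ℕ)) k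

omit hpf in
theorem map_Gz (σ : ℂ →+* ℂ) (z : ℂ) : (Gz z).map (PowerSeries.map σ) = Gz (σ z) := by
  rw [Gz, Gz, Polynomial.map_sub, Polynomial.map_mul, Polynomial.map_C, Polynomial.map_C,
    Polynomial.map_X, PowerSeries.map_X, map_mul, map_rescale', map_jser, PowerSeries.map_C,
    map_inv₀]

omit hpf in
theorem map_Gi (σ : ℂ →+* ℂ) : (Gi p).map (PowerSeries.map σ) = Gi p := by
  rw [Gi, Polynomial.map_sub, Polynomial.map_mul, Polynomial.map_C, Polynomial.map_C,
    Polynomial.map_X, map_pow, PowerSeries.map_X, map_xp, map_jser]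

theorem prod_Gz : ∏ b ∈ Finset.range p, Gz (zb p (b : ℕ)) =
    ∏ z ∈ Polynomial.nthRootsFinset p (1 : ℂ), Gz z := by
  refine Finset.prod_bij (fun b _ => zb p 1 ^ b) ?_ ?_ ?_ ?_
  · intro b _
    rw [Polynomial.mem_nthRootsFinset hpf.out.pos, ← pow_mul, mul_comm, pow_mul, zb_pow, one_pow]
  · intro a ha b hb h
    exact (prim p).pow_inj (Finset.mem_range.mp ha) (Finset.mem_range.mp hb) h
  · intro z hz
    rw [Polynomial.mem_nthRootsFinset hpf.out.pos] at hz
    obtain ⟨i, hi, h⟩ := (prim p).eq_pow_of_pow_eq_one hz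
    exact ⟨i, Finset.mem_range.mpr hi, h⟩
  · intro b _
    rw [zb_nat]

theorem map_GP (σ : ℂ ≃+* ℂ) : (GP p).map (PowerSeries.map (σ : ℂ →+* ℂ)) = GP p := by
  rw [GP, Polynomial.map_mul, map_Gi, prod_Gz, Polynomial.map_prod]
  congr 1
  refine Finset.prod_bij (fun z _ => σ z) ?_ ?_ ?_ ?_
  · intro z hz
    rw [Polynomial.mem_nthRootsFinset hpf.out.pos] at hz ⊢
    rw [← map_pow, hz, map_one]
  · intro a _ b _ h
    exact σ.injective h
  · intro z hz
    rw [Polynomial.mem_nthRootsFinset hpf.out.pos] at hz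
    refine ⟨σ.symm z, ?_, σ.apply_symm_apply z⟩
    rw [Polynomial.mem_nthRootsFinset hpf.out.pos, ← map_pow, hz, map_one]
  · intro z _
    rw [map_Gz]
    rfl

theorem exists_int_coeff (k n : ℕ) : ∃ m : ℤ, (m : ℂ) = ((GP p).coeff k).coeff n := by
  refine exists_int_of_fixed (mem_IS.mp (GP_mem p k) n) fun σ => ?_
  have h := congrArg (fun G : Polynomial (PowerSeries ℂ) => (G.coeff k).coeff n) (map_GP p σ)
  simp only [Polynomial.coeff_map, PowerSeries.coeff_map] at h
  exact h

/-- the expansion of `q^{p+1} s_k`, `s_k` the coefficients of `Ψ` -/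
theorem hasExp_coeff (k : ℕ) : HasExp (fun τ => 𝕢 1 (τ : ℂ) ^ (p + 1) * (Psi p τ).coeff k)
    (PowerSeries.mk fun n => ((GP p).coeff k).coeff (p * n)) := by
  intro τ
  have h1 := PX_GP p τ k
  rw [Polynomial.coeff_C_mul] at h1
  have h := hasSum_of_xp (p_pos p) (fun n hn => coeff_GP_eq_zero p k hn) h1
  refine h.congr_fun fun n => ?_
  rw [PowerSeries.coeff_mk, q_eq p τ]

/-- the coefficients of `Ψ` are integral polynomials in `j` -/
theorem exists_coeff (k : ℕ) :
    ∃ Q : ℤ[X], Q.natDegree ≤ p + 1 ∧ ∀ τ : ℍ, (Psi p τ).coeff k = Polynomial.aeval (jinv τ) Q := by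
  obtain ⟨P, hP1, hP2, -, hP4⟩ := polyStmt (Int.castRingHom ℂ).range (p + 1)
    (fun τ => (Psi p τ).coeff k) _ (mdiff_coeff p k)
    (fun γ τ => by rw [Psi_smul]) (hasExp_coeff p k) (fun n => by
      rw [PowerSeries.coeff_mk]
      obtain ⟨m, hm⟩ := exists_int_coeff p k (p * n)
      exact ⟨m, hm⟩)
  have hl : P ∈ Polynomial.lifts (Int.castRingHom ℂ) := by
    rw [Polynomial.lifts_iff_coeff_lifts]
    exact fun n => hP1 n
  obtain ⟨Q, hQ1, hQ2⟩ := Polynomial.exists_natDegree_eq_of_mem_lifts hl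
  refine ⟨Q, hQ2.trans_le hP2, fun τ => ?_⟩
  rw [hP4 τ, ← hQ1, Polynomial.eval_map, Polynomial.aeval_def]
  rfl

/-- evaluation of `Y` at `j(τ)` -/
def ev (τ : ℍ) : ℤ[X] →+* ℂ := (Polynomial.aeval (jinv τ) : ℤ[X] →ₐ[ℤ] ℂ).toRingHom

/-- **The modular equation of prime level.** -/
theorem exists_modPol : ∃ Φ : ℤ[X][X], Φ.Monic ∧ Φ.natDegree = p + 1 ∧
    (∀ k, (Φ.coeff k).natDegree ≤ p + 1) ∧ ∀ τ : ℍ, Φ.map (ev τ) = Psi p τ := by
  choose Q hQ1 hQ2 using exists_coeff p
  set S : ℤ[X][X] := ∑ k ∈ Finset.range (p + 1), Polynomial.C (Q k) * Polynomial.X ^ k with hS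
  have hdeg : S.degree < ((p + 1 : ℕ) : WithBot ℕ) := by
    rw [hS]
    refine (Polynomial.degree_sum_le _ _).trans_lt ?_
    rw [Finset.sup_lt_iff (WithBot.bot_lt_coe _)]
    intro k hk
    refine (Polynomial.degree_C_mul_X_pow_le _ _).trans_lt ?_
    exact_mod_cast Finset.mem_range.mp hk
  have hSc : ∀ k, S.coeff k = if k < p + 1 then Q k else 0 := by
    intro k
    rw [hS, Polynomial.finsetSum_coeff]
    simp only [Polynomial.coeff_C_mul_X_pow]
    rw [Finset.sum_ite_eq]
    simp only [Finset.mem_range]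
  have hmonic : (Polynomial.X ^ (p + 1) + S).Monic := Polynomial.monic_X_pow_add hdeg
  have hnat : (Polynomial.X ^ (p + 1) + S).natDegree = p + 1 := by
    rw [Polynomial.natDegree_add_eq_left_of_degree_lt, Polynomial.natDegree_X_pow]
    rwa [Polynomial.degree_X_pow]
  refine ⟨Polynomial.X ^ (p + 1) + S, hmonic, hnat, fun k => ?_, fun τ => ?_⟩
  · rw [Polynomial.coeff_add, Polynomial.coeff_X_pow, hSc]
    refine (Polynomial.natDegree_add_le _ _).trans (max_le ?_ ?_)
    · split_ifs <;> simp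
    · split_ifs
      · exact hQ1 k
      · simp
  · ext k
    rw [Polynomial.coeff_map, Polynomial.coeff_add, Polynomial.coeff_X_pow, hSc]
    rcases lt_trichotomy k (p + 1) with h | h | h
    · rw [if_neg h.ne, if_pos h, zero_add, hQ2 k τ]
      rfl
    · subst h
      rw [if_pos rfl, if_neg (lt_irrefl _), add_zero, map_one]
      have := monic_Psi p τ
      rw [Polynomial.Monic, Polynomial.leadingCoeff, natDegree_Psi] at this
      exact this.symm
    · rw [if_neg h.ne', if_neg (not_lt.mpr h.le), add_zero, map_zero]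
      refine (Polynomial.coeff_eq_zero_of_natDegree_lt ?_).symm
      rwa [natDegree_Psi]

/-- a polynomial is determined by its values at the `j(τ)` -/
theorem eq_of_ev {Φ Φ' : ℤ[X][X]} (h : ∀ τ : ℍ, Φ.map (ev τ) = Φ'.map (ev τ)) : Φ = Φ' := by
  ext1 k
  have hinj : Function.Injective (Polynomial.map (Int.castRingHom ℂ)) :=
    Polynomial.map_injective _ (RingHom.injective_int _)
  apply hinj
  refine Polynomial.funext fun x => ?_
  obtain ⟨τ, rfl⟩ := jinv_surjective x
  have h1 := congrArg (fun P : ℂ[X] => P.coeff k) (h τ)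
  simp only [Polynomial.coeff_map] at h1
  rw [Polynomial.eval_map, Polynomial.eval_map]
  exact h1

/-- there is exactly one modular equation -/
theorem existsUnique_modPol : ∃! Φ : ℤ[X][X], ∀ τ : ℍ, Φ.map (ev τ) = Psi p τ := by
  obtain ⟨Φ, -, -, -, h⟩ := exists_modPol p
  exact ⟨Φ, h, fun Φ' h' => eq_of_ev fun τ => (h' τ).trans (h τ).symm⟩

/-- the modular polynomial of level `p`, a polynomial in `X` with coefficients in `ℤ[Y]` -/
def modPol : ℤ[X][X] := (exists_modPol p).choose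

theorem monic_modPol : (modPol p).Monic := (exists_modPol p).choose_spec.1

theorem natDegree_modPol : (modPol p).natDegree = p + 1 := (exists_modPol p).choose_spec.2.1

theorem natDegree_coeff_modPol (k : ℕ) : ((modPol p).coeff k).natDegree ≤ p + 1 :=
  (exists_modPol p).choose_spec.2.2.1 k

theorem map_modPol (τ : ℍ) : (modPol p).map (ev τ) = Psi p τ :=
  (exists_modPol p).choose_spec.2.2.2 τ

/-- **the modular equation** `Φ_p(j(pτ), j(τ)) = 0` -/
theorem modPol_eq_zero (τ : ℍ) : ((modPol p).map (ev τ)).eval (jinv (up p τ)) = 0 := by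
  rw [map_modPol, Psi, Polynomial.eval_mul, Polynomial.eval_sub, Polynomial.eval_X,
    Polynomial.eval_C, sub_self, zero_mul]

/-- the roots of `Φ_p(X, j(τ))` -/
theorem modPol_eq_zero_iff (τ : ℍ) (x : ℂ) : ((modPol p).map (ev τ)).eval x = 0 ↔
    x = jinv (up p τ) ∨ ∃ b < p, x = jinv (dn p (b : ℕ) τ) := by
  rw [map_modPol, Psi, Polynomial.eval_mul, Polynomial.eval_prod, mul_eq_zero,
    Finset.prod_eq_zero_iff]
  simp only [Polynomial.eval_sub, Polynomial.eval_X, Polynomial.eval_C, sub_eq_zero,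
    Finset.mem_range]

end P

end Fermat.Agent.Cor.Kro
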