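import Fermat.Agent.Corollaries.Kro.Cong

/-!
# The modular equation is symmetric

`swap_modPol`: `Φ_p(X, Y) = Φ_p(Y, X)`.
-/

set_option autoImplicit false

noncomputable section

open UpperHalfPlane MatrixGroups
open scoped Manifold Real Polynomial

namespace Fermat.Agent.Cor.Kro

open Fermat.Agent.Cor.Tau (jinv HasExp jser map_jser hasSum_mul jinv_smul jinv_surjective
  hasExp_qj)

local notation "𝕢" => Function.Periodic.qParam

section P

variable (p : ℕ) [hpf : Fact p.Prime]

/-- `F` has a Laurent expansion in `t = q^{1/p}` with nonzero leading coefficient -/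
def NZ (F : ℍ → ℂ) : Prop :=
  ∃ (m : ℕ) (g : PowerSeries ℂ), g.coeff 0 ≠ 0 ∧
    ∀ τ, HasSum (fun n : ℕ => g.coeff n * tp p τ ^ n) (tp p τ ^ m * F τ)

variable {p}

omit hpf in
theorem coeff_zero_mul' (f g : PowerSeries ℂ) : (f * g).coeff 0 = f.coeff 0 * g.coeff 0 := by
  rw [PowerSeries.coeff_zero_eq_constantCoeff_apply, map_mul,
    ← PowerSeries.coeff_zero_eq_constantCoeff_apply, ← PowerSeries.coeff_zero_eq_constantCoeff_apply]

omit hpf in
theorem NZ.mul {F G : ℍ → ℂ} (hF : NZ p F) (hG : NZ p G) : NZ p fun τ => F τ * G τ := by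
  obtain ⟨m, f, hf0, hf⟩ := hF
  obtain ⟨m', g, hg0, hg⟩ := hG
  refine ⟨m + m', f * g, ?_, fun τ => ?_⟩
  · rw [coeff_zero_mul']
    exact mul_ne_zero hf0 hg0
  · have h := hasSum_mul (hf τ) (hg τ)
    have e : tp p τ ^ (m + m') * (F τ * G τ) = tp p τ ^ m * F τ * (tp p τ ^ m' * G τ) := by ring
    rw [e]
    exact h

omit hpf in
theorem NZ.prod {ι : Type*} (s : Finset ι) {F : ι → ℍ → ℂ} (h : ∀ i ∈ s, NZ p (F i)) :
    NZ p fun τ => ∏ i ∈ s, F i τ := by
  classical
  induction s using Finset.induction_on with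
  | empty =>
    refine ⟨0, PowerSeries.C 1, ?_, fun τ => ?_⟩
    · rw [PowerSeries.coeff_C, if_pos rfl]
      exact one_ne_zero
    · beta_reduce
      rw [Finset.prod_empty, pow_zero, mul_one]
      exact hasSum_C 1 _
  | insert a s ha ih =>
    simp only [Finset.prod_insert ha]
    exact (h a (Finset.mem_insert_self a s)).mul (ih fun i hi => h i (Finset.mem_insert_of_mem hi))

theorem NZ.exists_ne {F : ℍ → ℂ} (hF : NZ p F) : ∃ τ, F τ ≠ 0 := by
  by_contra hcon
  push Not at hcon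
  obtain ⟨m, g, hg0, hg⟩ := hF
  refine hg0 (coeff_eq_zero (b := fun n => g.coeff n) (fun t ht0 ht1 => ?_) 0)
  have hp0 : (0 : ℝ) < p := by exact_mod_cast hpf.out.pos
  let τ : ℍ := ⟨Function.Periodic.invQParam p t,
    Function.Periodic.im_invQParam_pos_of_norm_lt_one hp0 ht1 ht0⟩
  have hτ : tp p τ = t := Function.Periodic.qParam_right_inv hp0.ne' ht0
  have h := hg τ
  rw [hcon, mul_zero, hτ] at h
  exact h

variable (p)

theorem hasSum_dn (b : ℤ) (τ : ℍ) : HasSum (fun n : ℕ => (PowerSeries.C (zb p b)⁻¹ *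
    PowerSeries.rescale (zb p b) (jser ℂ)).coeff n * tp p τ ^ n) (tp p τ * jinv (dn p b τ)) := by
  have h2 : HasSum (fun n : ℕ => (PowerSeries.rescale (zb p b) (jser ℂ)).coeff n * tp p τ ^ n)
      (zb p b * tp p τ * jinv (dn p b τ)) := by
    have h := hasExp_qj (dn p b τ)
    rw [q_dn, Tau.qj, q_dn] at h
    refine h.congr_fun fun n => ?_
    rw [PowerSeries.coeff_rescale, mul_pow]
    ring
  have h3 := hasSum_mul (hasSum_C (zb p b)⁻¹ (tp p τ)) h2
  have e1 : tp p τ * jinv (dn p b τ) = (zb p b)⁻¹ * (zb p b * tp p τ * jinv (dn p b τ)) := by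
    have e3 := zb_ne_zero p b
    field_simp
  rw [e1]
  exact h3

theorem hasSum_up (τ : ℍ) : HasSum (fun n : ℕ => (xp (p ^ 2) (jser ℂ)).coeff n * tp p τ ^ n)
    (tp p τ ^ (p ^ 2) * jinv (up p τ)) := by
  refine hasSum_xp (pow_pos (p_pos p) 2) ?_
  have h := hasExp_qj (up p τ)
  rw [q_up p τ, Tau.qj, q_up p τ] at h
  exact h

omit hpf in
theorem coeff_zero_dn (z : ℂ) :
    (PowerSeries.C z⁻¹ * PowerSeries.rescale z (jser ℂ)).coeff 0 = z⁻¹ := by
  rw [PowerSeries.coeff_C_mul, PowerSeries.coeff_rescale, pow_zero, one_mul, coeff_zero_jser',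
    mul_one]

omit hpf in
theorem coeff_zero_X_pow_mul {m : ℕ} (hm : m ≠ 0) (f : PowerSeries ℂ) :
    (PowerSeries.X ^ m * f).coeff 0 = 0 := by
  rw [coeff_zero_mul', PowerSeries.coeff_X_pow, if_neg hm.symm, zero_mul]

theorem NZ_sub (r : ℂ) : NZ p fun τ => jinv τ - r := by
  refine ⟨p, xp p (jser ℂ) - PowerSeries.X ^ p * PowerSeries.C r, ?_, fun τ => ?_⟩
  · rw [map_sub, coeff_zero_xp, coeff_zero_jser', coeff_zero_X_pow_mul hpf.out.ne_zero, sub_zero]
    exact one_ne_zero
  · have h1 : HasSum (fun n : ℕ => (xp p (jser ℂ)).coeff n * tp p τ ^ n)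
        (tp p τ ^ p * jinv τ) := by
      refine hasSum_xp (p_pos p) ?_
      have h := hasExp_qj τ
      rw [Tau.qj, q_eq p τ] at h
      exact h
    have h2 := hasSum_sub' h1 (hasSum_mul (hasSum_X_pow p (tp p τ)) (hasSum_C r (tp p τ)))
    rw [mul_sub]
    exact h2

theorem NZ_up_dn (b : ℤ) : NZ p fun τ => jinv (up p τ) - jinv (dn p b τ) := by
  have hp1 : p ^ 2 - 1 ≠ 0 := by
    have h := hpf.out.two_le
    have : 2 ^ 2 ≤ p ^ 2 := Nat.pow_le_pow_left h 2
    omega
  refine ⟨p ^ 2, xp (p ^ 2) (jser ℂ) - PowerSeries.X ^ (p ^ 2 - 1) *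
    (PowerSeries.C (zb p b)⁻¹ * PowerSeries.rescale (zb p b) (jser ℂ)), ?_, fun τ => ?_⟩
  · rw [map_sub, coeff_zero_xp, coeff_zero_jser', coeff_zero_X_pow_mul hp1, sub_zero]
    exact one_ne_zero
  · have h2 := hasSum_sub' (hasSum_up p τ)
      (hasSum_mul (hasSum_X_pow (p ^ 2 - 1) (tp p τ)) (hasSum_dn p b τ))
    have e : tp p τ ^ (p ^ 2) * (jinv (up p τ) - jinv (dn p b τ)) =
        tp p τ ^ (p ^ 2) * jinv (up p τ) -
          tp p τ ^ (p ^ 2 - 1) * (tp p τ * jinv (dn p b τ)) := by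
      rw [mul_sub, ← mul_assoc (tp p τ ^ (p ^ 2 - 1)), ← pow_succ]
      congr 3
      omega
    rw [e]
    exact h2

theorem zb_ne {b b' : ℕ} (hb : b < p) (hb' : b' < p) (h : b ≠ b') :
    zb p (b : ℤ) ≠ zb p (b' : ℤ) := by
  rw [zb_nat, zb_nat]
  exact fun h1 => h ((prim p).pow_inj hb hb' h1)

theorem NZ_dn_dn {b b' : ℕ} (hb : b < p) (hb' : b' < p) (h : b ≠ b') :
    NZ p fun τ => jinv (dn p (b : ℤ) τ) - jinv (dn p (b' : ℤ) τ) := by
  refine ⟨1, (PowerSeries.C (zb p b)⁻¹ * PowerSeries.rescale (zb p b) (jser ℂ)) -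
    (PowerSeries.C (zb p b')⁻¹ * PowerSeries.rescale (zb p b') (jser ℂ)), ?_, fun τ => ?_⟩
  · rw [map_sub, coeff_zero_dn, coeff_zero_dn, sub_ne_zero]
    exact fun h1 => zb_ne p hb hb' h (inv_injective h1)
  · rw [pow_one, mul_sub]
    exact hasSum_sub' (hasSum_dn p b τ) (hasSum_dn p b' τ)

/-- the product of the differences of the roots -/
def Dd (τ : ℍ) : ℂ :=
  (∏ b ∈ Finset.range p, (jinv (up p τ) - jinv (dn p (b : ℕ) τ))) *
    ∏ b ∈ Finset.range p, ∏ b' ∈ (Finset.range p).erase b,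
      (jinv (dn p (b : ℕ) τ) - jinv (dn p (b' : ℕ) τ))

theorem NZ_Dd : NZ p (Dd p) := by
  refine NZ.mul (NZ.prod _ fun b _ => NZ_up_dn p b) (NZ.prod _ fun b hb => NZ.prod _ fun b' hb' => ?_)
  rw [Finset.mem_erase] at hb'
  exact NZ_dn_dn p (Finset.mem_range.mp hb) (Finset.mem_range.mp hb'.2) (Ne.symm hb'.1)

/-- a nonzero polynomial in `j` and the differences of the roots do not vanish at some `τ` -/
theorem exists_tau {P : ℂ[X]} (hP : P ≠ 0) : ∃ τ : ℍ, Dd p τ ≠ 0 ∧ P.eval (jinv τ) ≠ 0 := by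
  classical
  obtain ⟨τ, hτ⟩ := ((NZ_Dd p).mul (NZ.prod P.roots.toFinset fun r _ => NZ_sub p r)).exists_ne
  obtain ⟨h1, h2⟩ := mul_ne_zero_iff.mp hτ
  refine ⟨τ, h1, fun h3 => ?_⟩
  rw [Finset.prod_ne_zero_iff] at h2
  exact h2 (jinv τ) (Multiset.mem_toFinset.mpr ((Polynomial.mem_roots hP).mpr h3)) (sub_self _)

/-! ### The exchange of the variables -/

omit hpf in
theorem coeff_coeff_swap' (P : ℤ[X][X]) (i j : ℕ) :
    ((Polynomial.Bivariate.swap P).coeff i).coeff j = (P.coeff j).coeff i := by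
  induction P using Polynomial.induction_on' with
  | add f g hf hg => simp only [map_add, Polynomial.coeff_add, hf, hg]
  | monomial n a =>
    induction a using Polynomial.induction_on' with
    | add f g hf hg => simp only [map_add, Polynomial.coeff_add, hf, hg]
    | monomial m r =>
      rw [Polynomial.Bivariate.swap_monomial_monomial, Polynomial.coeff_monomial,
        Polynomial.coeff_monomial]
      split_ifs with h1 h2 h2
      · rw [Polynomial.coeff_monomial, Polynomial.coeff_monomial, if_pos h2, if_pos h1]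
      · rw [Polynomial.coeff_monomial, if_neg h2, Polynomial.coeff_zero]
      · rw [Polynomial.coeff_monomial, if_neg h1, Polynomial.coeff_zero]
      · rw [Polynomial.coeff_zero, Polynomial.coeff_zero]

omit hpf in
theorem ev_eval (P : ℤ[X][X]) (τ : ℍ) (x : ℂ) :
    (P.map (ev τ)).eval x = Polynomial.aevalAeval (jinv τ) x P := by
  have h : (Polynomial.evalRingHom x).comp (Polynomial.mapRingHom (ev τ)) =
      (Polynomial.aevalAeval (R := ℤ) (jinv τ) x : ℤ[X][X] →+* ℂ) := by
    ext <;> simp [ev]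
  exact congrArg (fun f : ℤ[X][X] →+* ℂ => f P) h

omit hpf in
theorem swap_eval (P : ℤ[X][X]) {τ τ' : ℍ} :
    ((Polynomial.Bivariate.swap P).map (ev τ)).eval (jinv τ') =
      (P.map (ev τ')).eval (jinv τ) := by
  rw [ev_eval, ev_eval, Polynomial.Bivariate.aevalAeval_swap]

theorem natDegree_swap_le : (Polynomial.Bivariate.swap (modPol p)).natDegree ≤ p + 1 := by
  rw [Polynomial.natDegree_le_iff_coeff_eq_zero]
  intro i hi
  ext j
  rw [coeff_coeff_swap', Polynomial.coeff_zero]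
  exact Polynomial.coeff_eq_zero_of_natDegree_lt ((natDegree_coeff_modPol p j).trans_lt hi)

theorem dn_up (τ : ℍ) : dn p 0 (up p τ) = τ := by
  have hp0 : (p : ℂ) ≠ 0 := by exact_mod_cast hpf.out.ne_zero
  ext
  rw [coe_dn, coe_up]
  push_cast
  field_simp
  ring

theorem jup_dn (b : ℤ) (τ : ℍ) : jinv (up p (dn p b τ)) = jinv τ := by
  have hp0 : (p : ℂ) ≠ 0 := by exact_mod_cast hpf.out.ne_zero
  have h : up p (dn p b τ) = ModularGroup.T ^ b • τ := by
    ext
    rw [coe_up, coe_dn, ModularGroup.coe_T_zpow_smul_eq]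
    field_simp
  rw [h, jinv_smul]

/-- the exchanged polynomial vanishes at the roots -/
theorem swap_root_up (τ : ℍ) :
    ((Polynomial.Bivariate.swap (modPol p)).map (ev τ)).eval (jinv (up p τ)) = 0 := by
  rw [swap_eval, modPol_eq_zero_iff]
  refine Or.inr ⟨0, p_pos p, ?_⟩
  rw [Nat.cast_zero, dn_up]

theorem swap_root_dn (b : ℤ) (τ : ℍ) :
    ((Polynomial.Bivariate.swap (modPol p)).map (ev τ)).eval (jinv (dn p b τ)) = 0 := by
  rw [swap_eval, modPol_eq_zero_iff]
  exact Or.inl (jup_dn p b τ).symm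

/-- the coefficient of `X^{p+1}` -/
def cc : ℤ[X] := (Polynomial.Bivariate.swap (modPol p)).coeff (p + 1)

theorem swap_map_of_ne {τ : ℍ} (hτ : Dd p τ ≠ 0) :
    (Polynomial.Bivariate.swap (modPol p)).map (ev τ) =
      (Polynomial.C (cc p) * modPol p).map (ev τ) := by
  obtain ⟨h1, h2⟩ := mul_ne_zero_iff.mp hτ
  rw [Finset.prod_ne_zero_iff] at h1 h2
  have h2' : ∀ b < p, ∀ b' < p, b ≠ b' → jinv (dn p (b : ℕ) τ) ≠ jinv (dn p (b' : ℕ) τ) := by
    intro b hb b' hb' hbb
    have h3 := h2 b (Finset.mem_range.mpr hb)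
    rw [Finset.prod_ne_zero_iff] at h3
    exact sub_ne_zero.mp (h3 b' (Finset.mem_erase.mpr ⟨Ne.symm hbb, Finset.mem_range.mpr hb'⟩))
  let v : ℕ → ℂ := fun i => if i < p then jinv (dn p (i : ℕ) τ) else jinv (up p τ)
  have hv : Set.InjOn v (Finset.range (p + 1)) := by
    intro a ha b hb hab
    rw [Finset.coe_range, Set.mem_Iio] at ha hb
    simp only [v] at hab
    split_ifs at hab with h3 h4 h4
    · by_contra hne
      exact h2' a h3 b h4 hne hab
    · exact (h1 a (Finset.mem_range.mpr h3) (sub_eq_zero.mpr hab.symm)).elim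
    · exact (h1 b (Finset.mem_range.mpr h4) (sub_eq_zero.mpr hab)).elim
    · omega
  rw [← sub_eq_zero]
  refine Polynomial.eq_zero_of_degree_lt_of_eval_index_eq_zero (s := Finset.range (p + 1)) hv ?_ ?_
  · rw [Finset.card_range, Polynomial.degree_lt_iff_coeff_zero]
    intro m hm
    rw [Polynomial.coeff_sub, Polynomial.coeff_map, Polynomial.coeff_map, Polynomial.coeff_C_mul]
    rcases hm.eq_or_lt with h | h
    · have hlead : (modPol p).coeff (p + 1) = 1 := by
        have := monic_modPol p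
        rwa [Polynomial.Monic, Polynomial.leadingCoeff, natDegree_modPol] at this
      rw [← h, hlead, mul_one, cc, sub_self]
    · rw [Polynomial.coeff_eq_zero_of_natDegree_lt ((natDegree_swap_le p).trans_lt h),
        Polynomial.coeff_eq_zero_of_natDegree_lt (by rw [natDegree_modPol]; exact h), mul_zero,
        sub_self]
  · intro i hi
    rw [Polynomial.eval_sub, Polynomial.map_mul, Polynomial.eval_mul]
    simp only [v]
    split_ifs with h3
    · rw [swap_root_dn, (modPol_eq_zero_iff p τ _).mpr (Or.inr ⟨i, h3, rfl⟩), mul_zero, sub_self]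
    · rw [swap_root_up, modPol_eq_zero, mul_zero, sub_self]

theorem swap_eq_mul : Polynomial.Bivariate.swap (modPol p) = Polynomial.C (cc p) * modPol p := by
  ext1 k
  by_contra hne
  have hP : ((Polynomial.Bivariate.swap (modPol p)).coeff k -
      (Polynomial.C (cc p) * modPol p).coeff k).map (Int.castRingHom ℂ) ≠ 0 := by
    intro h
    refine hne (sub_eq_zero.mp ?_)
    apply Polynomial.map_injective (Int.castRingHom ℂ) (RingHom.injective_int _)
    rw [h, Polynomial.map_zero]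
  obtain ⟨τ, h1, h2⟩ := exists_tau p hP
  refine h2 ?_
  have h3 := congrArg (fun P : ℂ[X] => P.coeff k) (swap_map_of_ne p h1)
  simp only [Polynomial.coeff_map] at h3
  rw [Polynomial.eval_map]
  have h4 : ev τ ((Polynomial.Bivariate.swap (modPol p)).coeff k -
      (Polynomial.C (cc p) * modPol p).coeff k) = 0 := by rw [map_sub, h3, sub_self]
  exact h4

/-- **The modular equation is symmetric**: `Φ_p(X, Y) = Φ_p(Y, X)`. -/
theorem swap_modPol : Polynomial.Bivariate.swap (modPol p) = modPol p := by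
  have hne : modPol p ≠ 0 := (monic_modPol p).ne_zero
  have h1 := congrArg Polynomial.Bivariate.swap (swap_eq_mul p)
  rw [Polynomial.Bivariate.swap_swap_apply, map_mul] at h1
  have h1' : modPol p = Polynomial.Bivariate.swap (Polynomial.C (cc p)) *
      (Polynomial.C (cc p) * modPol p) := h1.trans (by rw [← swap_eq_mul p])
  have h2 : Polynomial.C (cc p) * Polynomial.Bivariate.swap (Polynomial.C (cc p)) = 1 := by
    refine mul_right_cancel₀ hne ?_
    rw [one_mul]
    conv_rhs => rw [h1']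
    ring
  have h3 : IsUnit (cc p) := Polynomial.isUnit_C.mp (IsUnit.of_mul_eq_one _ h2)
  obtain ⟨r, hr, hr'⟩ := Polynomial.isUnit_iff.mp h3
  rcases Int.isUnit_iff.mp hr with rfl | rfl
  · rw [swap_eq_mul, ← hr', map_one, map_one, one_mul]
  · exfalso
    obtain ⟨τ, hτ⟩ : ∃ τ, Phi p τ ≠ 0 := by
      obtain ⟨f, hf1, -, hf3⟩ := expStmt_of invStmt p
      have hNZ : NZ p (Phi p) := by
        refine ⟨p * (2 * p), xp p f, ?_, fun τ => ?_⟩
        · rw [coeff_zero_xp, hf3]
          exact neg_ne_zero.mpr one_ne_zero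
        · refine hasSum_xp (p_pos p) ?_
          have h := hf1 τ
          beta_reduce at h
          rw [q_eq p τ, ← pow_mul] at h
          exact h
      exact hNZ.exists_ne
    have h4 : ((modPol p).map (ev τ)).eval (jinv τ) = Phi p τ := by
      rw [map_modPol, Psi, Phi, Polynomial.eval_mul, Polynomial.eval_prod]
      simp only [Polynomial.eval_sub, Polynomial.eval_X, Polynomial.eval_C]
    have h5 := swap_eval (modPol p) (τ := τ) (τ' := τ)
    rw [swap_eq_mul, ← hr', Polynomial.map_mul, Polynomial.eval_mul, h4] at h5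
    simp only [map_neg, map_one, Polynomial.map_neg, Polynomial.map_one, Polynomial.eval_neg,
      Polynomial.eval_one, neg_mul, one_mul] at h5
    exact hτ (self_eq_neg.mp h5.symm)

/-- the coefficients are symmetric -/
theorem coeff_modPol_symm (i j : ℕ) :
    ((modPol p).coeff i).coeff j = ((modPol p).coeff j).coeff i := by
  conv_lhs => rw [← swap_modPol p]
  exact coeff_coeff_swap' _ _ _

end P

end Fermat.Agent.Cor.Kro
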